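/-
S18 / package H (row 418, sub-architect helper26): the Hauptmoduln of `Γ₀(2)`, `Γ₀(3)`.
DEFINITIONS.

* `s18hUnit e`, `s18hUnitInv e`, `s18hq a e R`, `s18hExp a` : VERBATIM the definitions of
  `S18/Core/Small.lean` (helper6 1b68609) - moved here so that the leaves of package H do not import
  the file that states them.
* `s18hE`, `s18hD`    : the formal `E₄ = 1 + 240 Σ σ₃(n) qⁿ` and `Δ = q ∏ (1 - qⁿ)^24` in `ℤ⟦X⟧`.
* `s18hExpand a f`    : `f(X^a)` for a power series `f`.
-/
import Mathlib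
import Fermat.Prelude.Def_ModularCurve_X0ModL

set_option autoImplicit false

noncomputable section

namespace Fermat.Agent.S18

open ModularCurve

/-- `∏ (1 - qⁿ)^e` and its inverse, over `ℤ`. -/
def s18hUnit (e : ℕ) : PowerSeries ℤ := etaProd ^ e

/-- the inverse power series of `s18hUnit e` -/
def s18hUnitInv (e : ℕ) : PowerSeries ℤ := (s18hUnit e).invOfUnit 1

/-- The Hauptmodul `h_a(q) = q⁻¹ ∏ (1 - qⁿ)^e (1 - q^{an})^{-e}` over a commutative ring `R`
(`a = 2, e = 24`: `Δ(q)/Δ(q²)`;  `a = 3, e = 12`: `(η(q)/η(q³))^12`). -/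
def s18hq (a : ℕ) [NeZero a] (e : ℕ) (R : Type*) [CommRing R] : LaurentSeries R :=
  HahnSeries.single (-1 : ℤ) 1 *
    HahnSeries.ofPowerSeries ℤ R ((s18hUnit e).map (Int.castRingHom R)) *
    qExpand R a (HahnSeries.ofPowerSeries ℤ R ((s18hUnitInv e).map (Int.castRingHom R)))

/-- the exponent `e = 24/(a-1)` -/
def s18hExp (a : ℕ) : ℕ := 24 / (a - 1)

/-- the formal Eisenstein series `E₄` -/
def s18hE : PowerSeries ℤ := eisenstein4

/-- the formal discriminant `Δ = q ∏ (1 - qⁿ)^24` -/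
def s18hD : PowerSeries ℤ := PowerSeries.X * etaProd ^ 24

/-- `f(X^a)` -/
def s18hExpand {R : Type*} [Semiring R] (a : ℕ) (f : PowerSeries R) : PowerSeries R :=
  PowerSeries.mk fun n => if a ∣ n then PowerSeries.coeff (n / a) f else 0

theorem s18hExpand_coeff {R : Type*} [Semiring R] (a : ℕ) (f : PowerSeries R) (n : ℕ) :
    PowerSeries.coeff n (s18hExpand a f) = if a ∣ n then PowerSeries.coeff (n / a) f else 0 :=
  PowerSeries.coeff_mk _ _

end Fermat.Agent.S18
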