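import Mathlib
import Fermat.Agent.S18.V.Gauss
import Fermat.Agent.S18.H.Defs

/-!
# S18, package H, row Hc : the Hauptmodul `h_a` is a good coordinate

ABSTRACT PART (`s18hk_coord_of_coord`): if `j` is a good coordinate of `F` (`S18Coord`), `j` and `h`
are integral series with a pole mod `ϖ`, and `j ∈ L₀(h)`, then `h` is a good coordinate of `F`.
  * `A₀[j]_(ϖ) = s18vO F ∩ L₀(j) ⊆ s18vO F ∩ L₀(h) = A₀[h]_(ϖ)` (package V-a), so the integral
    closures of both in `F` are the Gauss ring `s18vO F`;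
  * self-duality over `L₀(h)` from self-duality over `L₀(j)` by transitivity of the trace
    (`Algebra.trace_trace`) and integrality of traces (`Algebra.isIntegral_trace`).
HAUPTMODUL PART: `s18hq a e` is functorial in the coefficient ring and has a simple pole with leading
coefficient `1`; `j = R_a(h)/h^n` from the identities of package H.
-/

set_option autoImplicit false
set_option linter.unusedSectionVars false
set_option linter.style.haveILetI false
set_option synthInstance.maxHeartbeats 400000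

noncomputable section

namespace Fermat.Agent.S18

open ModularCurve IsLocalRing Polynomial IntermediateField

/-! ### integrality over subrings of a field -/

section TraceInt

variable {L F : Type*} [Field L] [Field F] [Algebra L F]

/-- integrality over a subring is monotone in the subring -/
theorem s18hk_isIntegral_mono {R S : Subring F} (hRS : R ≤ S) {x : F} (hx : IsIntegral R x) :
    IsIntegral S x :=
  IsIntegral.map_of_comp_eq (Subring.inclusion hRS) (RingHom.id F) rfl hx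

/-- transitivity: integral over the integral closure (as a subring) of `R` ⟹ integral over `R` -/
theorem s18hk_isIntegral_trans (R : Subring F) {x : F}
    (hx : IsIntegral (integralClosure R F).toSubring x) : IsIntegral R x := by
  let φ : (integralClosure R F).toSubring →+* integralClosure R F :=
    { toFun := fun y => ⟨y.1, y.2⟩
      map_one' := rfl
      map_mul' := fun _ _ => rfl
      map_zero' := rfl
      map_add' := fun _ _ => rfl }
  have h1 : IsIntegral (integralClosure R F) x :=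
    IsIntegral.map_of_comp_eq φ (RingHom.id F) rfl hx
  exact isIntegral_trans x h1

/-- the trace `K' → K` of an element integral over a subring `R ⊆ K` of `F` is integral over `R` -/
theorem s18hk_isIntegral_trace (K K' : IntermediateField L F) (hle : K ≤ K')
    [FiniteDimensional K F] (R : Subring F) (hR : ∀ x ∈ R, x ∈ K) (z : K')
    (hz : IsIntegral R (z : F)) :
    letI : Algebra K K' := (IntermediateField.inclusion hle).toRingHom.toAlgebra
    IsIntegral R ((Algebra.trace K K' z : K) : F) := by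
  letI : Algebra K K' := (IntermediateField.inclusion hle).toRingHom.toAlgebra
  haveI : IsScalarTower K K' F := IsScalarTower.of_algebraMap_eq (fun _ => rfl)
  haveI : FiniteDimensional K K' := FiniteDimensional.left K K' F
  -- the copy of `R` inside `K`
  let R' : Subring K := R.comap (algebraMap K F)
  let φ : R →+* R' :=
    { toFun := fun x => ⟨⟨x.1, hR x.1 x.2⟩, x.2⟩
      map_one' := rfl
      map_mul' := fun _ _ => rfl
      map_zero' := rfl
      map_add' := fun _ _ => rfl }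
  let φ' : R' →+* R :=
    { toFun := fun x => ⟨(x.1 : F), x.2⟩
      map_one' := rfl
      map_mul' := fun _ _ => rfl
      map_zero' := rfl
      map_add' := fun _ _ => rfl }
  haveI : IsScalarTower R' K' F := IsScalarTower.of_algebraMap_eq (fun _ => rfl)
  haveI : IsScalarTower R' K K' := IsScalarTower.of_algebraMap_eq (fun _ => rfl)
  have h1 : IsIntegral R' (z : F) :=
    IsIntegral.map_of_comp_eq φ (RingHom.id F) rfl hz
  have h2 : IsIntegral R' z :=
    (isIntegral_algebraMap_iff (algebraMap K' F).injective).mp h1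
  have h3 : IsIntegral R' (Algebra.trace K K' z) := Algebra.isIntegral_trace h2
  exact IsIntegral.map_of_comp_eq φ' (algebraMap K F) rfl h3

/-- finiteness over a larger intermediate field -/
theorem s18hk_finiteDimensional_of_le (K K' : IntermediateField L F) (hle : K ≤ K')
    [FiniteDimensional K F] : FiniteDimensional K' F := by
  letI : Algebra K K' := (IntermediateField.inclusion hle).toRingHom.toAlgebra
  haveI : IsScalarTower K K' F := IsScalarTower.of_algebraMap_eq (fun _ => rfl)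
  exact FiniteDimensional.right K K' F

/-- if `Tr_{F/K'}(x)` is integral over a subring `R ⊆ K ⊆ K'` then so is `Tr_{F/K}(x)` -/
theorem s18hk_isIntegral_trace_of_le (K K' : IntermediateField L F) (hle : K ≤ K')
    [FiniteDimensional K F] [FiniteDimensional K' F] (R : Subring F) (hR : ∀ x ∈ R, x ∈ K) (x : F)
    (hz : IsIntegral R ((Algebra.trace K' F x : K') : F)) :
    IsIntegral R ((Algebra.trace K F x : K) : F) := by
  letI : Algebra K K' := (IntermediateField.inclusion hle).toRingHom.toAlgebra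
  haveI : IsScalarTower K K' F := IsScalarTower.of_algebraMap_eq (fun _ => rfl)
  haveI : FiniteDimensional K K' := FiniteDimensional.left K K' F
  rw [← Algebra.trace_trace (S := K')]
  exact s18hk_isIntegral_trace K K' hle R hR _ hz

end TraceInt

/-! ### the abstract change of coordinate -/

section Abstract

variable {A₀ : Type*} [CommRing A₀] [IsDomain A₀] [IsDiscreteValuationRing A₀] [CharZero A₀]
variable {L₀ : Type*} [Field L₀] [Algebra A₀ L₀] [IsFractionRing A₀ L₀]
variable {ϖ : A₀}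

/-- `A₀[t]_(ϖ) ⊆ L₀(t)` -/
theorem s18hk_loc_le_adjoin (hϖ : Irreducible ϖ) (F : IntermediateField L₀ (LaurentSeries L₀))
    (t : F) (τ : LaurentSeries A₀) (ht : S18VPole F t τ) (x : F)
    (hx : x ∈ s18tLoc A₀ t (C ϖ) (s18t_prime_C hϖ)) : x ∈ L₀⟮t⟯ := by
  obtain ⟨a, b, hb, hxab⟩ := hx
  have hb0 : aeval t b ≠ 0 := s18vg_aeval_ne_zero F hϖ t τ ht b hb
  have hx' : x = aeval t a / aeval t b := by
    rw [eq_div_iff hb0, hxab]
  have hmem : ∀ c : A₀[X], aeval t c ∈ L₀⟮t⟯ := by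
    intro c
    have h1 : aeval t c = aeval t (c.map (algebraMap A₀ L₀)) := by
      rw [aeval_map_algebraMap]
    rw [h1]
    exact IntermediateField.algebra_adjoin_le_adjoin L₀ {t}
      (Polynomial.aeval_mem_adjoin_singleton L₀ t)
  rw [hx']
  exact div_mem (hmem a) (hmem b)

/-- the Gauss rings of `L₀(j) ⊆ L₀(h)` -/
theorem s18hk_loc_le_loc (hϖ : Irreducible ϖ) (F : IntermediateField L₀ (LaurentSeries L₀))
    (j h : F) (τj τh : LaurentSeries A₀) (hj : S18VPole F j τj) (hh : S18VPole F h τh)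
    (hjh : j ∈ L₀⟮h⟯) :
    s18tLoc A₀ j (C ϖ) (s18t_prime_C hϖ) ≤ s18tLoc A₀ h (C ϖ) (s18t_prime_C hϖ) := by
  intro x hx
  have hle : L₀⟮j⟯ ≤ L₀⟮h⟯ := adjoin_simple_le_iff.mpr hjh
  exact s18v_mem_loc_of_mem' F hϖ h τh hh x (s18v_loc_le' F hϖ j τj hj x hx)
    (hle (s18hk_loc_le_adjoin hϖ F j τj hj x hx))

/-- the integral closures of `A₀[j]_(ϖ)` and `A₀[h]_(ϖ)` in `F` coincide -/
theorem s18hk_intLoc_eq (hϖ : Irreducible ϖ) (F : IntermediateField L₀ (LaurentSeries L₀))
    (j h : F) (τj τh : LaurentSeries A₀) (hj : S18VPole F j τj) (hh : S18VPole F h τh)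
    (hjh : j ∈ L₀⟮h⟯)
    (hint : s18tIntLoc A₀ j (C ϖ) (s18t_prime_C hϖ) = s18vO A₀ F) :
    s18tIntLoc A₀ h (C ϖ) (s18t_prime_C hϖ) = s18vO A₀ F := by
  have hRR := s18hk_loc_le_loc hϖ F j h τj τh hj hh hjh
  have hRhB : s18tLoc A₀ h (C ϖ) (s18t_prime_C hϖ) ≤
      s18tIntLoc A₀ j (C ϖ) (s18t_prime_C hϖ) := by
    intro x hx
    rw [hint]
    exact s18v_loc_le' F hϖ h τh hh x hx
  apply le_antisymm
  · intro x hx
    rw [← hint]
    have h1 : IsIntegral (s18tLoc A₀ h (C ϖ) (s18t_prime_C hϖ)) x := hx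
    have h2 : IsIntegral (s18tIntLoc A₀ j (C ϖ) (s18t_prime_C hϖ)) x :=
      s18hk_isIntegral_mono hRhB h1
    exact s18hk_isIntegral_trans _ h2
  · intro x hx
    rw [← hint] at hx
    exact s18hk_isIntegral_mono hRR hx

/-- **change of coordinate**: if `j` is a good coordinate of `F` and `j ∈ L₀(h)` for an integral
series `h` with a pole mod `ϖ`, then `h` is a good coordinate of `F`. -/
theorem s18hk_coord_of_coord (hϖ : Irreducible ϖ) (F : IntermediateField L₀ (LaurentSeries L₀))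
    (j h : F) (τj τh : LaurentSeries A₀) (hj : S18VPole F j τj) (hh : S18VPole F h τh)
    (hjh : j ∈ L₀⟮h⟯) (hc : S18Coord hϖ F j) : S18Coord hϖ F h := by
  have hle : L₀⟮j⟯ ≤ L₀⟮h⟯ := adjoin_simple_le_iff.mpr hjh
  haveI := hc.fin
  haveI hfin : FiniteDimensional L₀⟮h⟯ F := s18hk_finiteDimensional_of_le L₀⟮j⟯ L₀⟮h⟯ hle
  have hint_h := s18hk_intLoc_eq hϖ F j h τj τh hj hh hjh hc.intLoc_eq
  have heq : s18tIntLoc A₀ h (C ϖ) (s18t_prime_C hϖ) =
      s18tIntLoc A₀ j (C ϖ) (s18t_prime_C hϖ) := hint_h.trans hc.intLoc_eq.symm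
  have hRhB : s18tLoc A₀ h (C ϖ) (s18t_prime_C hϖ) ≤
      s18tIntLoc A₀ j (C ϖ) (s18t_prime_C hϖ) := by
    intro x hx
    rw [hc.intLoc_eq]
    exact s18v_loc_le' F hϖ h τh hh x hx
  refine ⟨s18v_transcendental' F hϖ h τh hh, hfin, hint_h, ?_⟩
  intro x H
  rw [heq]
  apply hc.selfDual x
  intro y hy
  have hz := H y (heq ▸ hy)
  refine s18v_mem_loc_of_mem' F hϖ j τj hj _ ?_ (Subtype.property _)
  rw [← hc.intLoc_eq]
  exact s18hk_isIntegral_trace_of_le L₀⟮j⟯ L₀⟮h⟯ hle (s18tLoc A₀ j (C ϖ) (s18t_prime_C hϖ))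
    (s18hk_loc_le_adjoin hϖ F j τj hj) _ (hRhB hz)

end Abstract

/-! ### the Hauptmodul as a Laurent series -/

section Hauptmodul

variable {R S : Type*} [CommRing R] [CommRing S]

/-- `s18hq` is functorial in the coefficient ring -/
theorem s18hk_coeffMap_hq (f : R →+* S) (a : ℕ) [NeZero a] (e : ℕ) :
    coeffMap f (s18hq a e R) = s18hq a e S := by
  have hf : f.comp (Int.castRingHom R) = Int.castRingHom S :=
    RingHom.ext_int (f.comp (Int.castRingHom R)) (Int.castRingHom S)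
  have hmap : ∀ P : PowerSeries ℤ,
      (P.map (Int.castRingHom R)).map f = P.map (Int.castRingHom S) := by
    intro P
    rw [← RingHom.comp_apply (PowerSeries.map f) (PowerSeries.map (Int.castRingHom R)),
      ← PowerSeries.map_comp, hf]
  rw [s18hq, map_mul, map_mul, coeffMap_single, map_one, coeffMap_ofPowerSeries, coeffMap_qExpand,
    coeffMap_ofPowerSeries, hmap, hmap]
  rfl

/-- `qExpand` of a power series is a power series with the same constant coefficient -/
theorem s18hk_qExpand_ofPowerSeries (a : ℕ) [NeZero a] (V : PowerSeries R) :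
    ∃ W : PowerSeries R, qExpand R a (HahnSeries.ofPowerSeries ℤ R V) =
        HahnSeries.ofPowerSeries ℤ R W ∧
      PowerSeries.constantCoeff W = PowerSeries.constantCoeff V := by
  refine ⟨PowerSeries.mk fun n =>
    (qExpand R a (HahnSeries.ofPowerSeries ℤ R V)).coeff (n : ℤ), ?_, ?_⟩
  · ext k
    rcases le_or_gt 0 k with hk | hk
    · lift k to ℕ using hk
      rw [HahnSeries.ofPowerSeries_apply_coeff, PowerSeries.coeff_mk]
    · rw [ofPowerSeries_coeff_of_neg _ hk]
      by_cases hdvd : (a : ℤ) ∣ k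
      · obtain ⟨k', rfl⟩ := hdvd
        rw [qExpand_coeff_mul]
        have hk' : k' < 0 := by
          by_contra hge
          rw [not_lt] at hge
          have : (0 : ℤ) ≤ (a : ℤ) * k' := mul_nonneg (Int.natCast_nonneg a) hge
          omega
        exact ofPowerSeries_coeff_of_neg _ hk'
      · exact qExpand_coeff_of_not_dvd a _ hdvd
  · rw [← PowerSeries.coeff_zero_eq_constantCoeff_apply, PowerSeries.coeff_mk]
    have h0 : ((0 : ℕ) : ℤ) = (a : ℤ) * 0 := by simp
    rw [h0, qExpand_coeff_mul]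
    have h1 : (0 : ℤ) = ((0 : ℕ) : ℤ) := rfl
    rw [h1, HahnSeries.ofPowerSeries_apply_coeff, PowerSeries.coeff_zero_eq_constantCoeff_apply]

/-- the constant coefficients of `s18hUnit`, `s18hUnitInv` -/
theorem s18hk_constantCoeff_unit (e : ℕ) : PowerSeries.constantCoeff (s18hUnit e) = 1 := by
  rw [s18hUnit, map_pow, constantCoeff_etaProd, one_pow]

theorem s18hk_constantCoeff_unitInv (e : ℕ) : PowerSeries.constantCoeff (s18hUnitInv e) = 1 := by
  rw [s18hUnitInv, PowerSeries.constantCoeff_invOfUnit]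
  simp

/-- the leading coefficient of the Hauptmodul -/
theorem s18hk_coeff_hq_neg_one (a : ℕ) [NeZero a] (e : ℕ) :
    (s18hq a e R).coeff (-1 : ℤ) = 1 := by
  obtain ⟨W, hW, hW0⟩ := s18hk_qExpand_ofPowerSeries (R := R) a
    ((s18hUnitInv e).map (Int.castRingHom R))
  rw [s18hq, hW, mul_assoc, ← map_mul]
  have key := HahnSeries.coeff_single_mul_add (r := (1 : R))
    (x := HahnSeries.ofPowerSeries ℤ R ((s18hUnit e).map (Int.castRingHom R) * W))
    (a := (0 : ℤ)) (b := (-1 : ℤ))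
  rw [zero_add, one_mul] at key
  rw [key]
  have h2 : (0 : ℤ) = ((0 : ℕ) : ℤ) := rfl
  rw [h2, HahnSeries.ofPowerSeries_apply_coeff, PowerSeries.coeff_zero_eq_constantCoeff_apply,
    map_mul, hW0]
  rw [← PowerSeries.coeff_zero_eq_constantCoeff_apply, ← PowerSeries.coeff_zero_eq_constantCoeff_apply,
    PowerSeries.coeff_map, PowerSeries.coeff_map, PowerSeries.coeff_zero_eq_constantCoeff_apply,
    PowerSeries.coeff_zero_eq_constantCoeff_apply, s18hk_constantCoeff_unit,
    s18hk_constantCoeff_unitInv]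
  simp

theorem s18hk_hq_ne_zero [Nontrivial R] (a : ℕ) [NeZero a] (e : ℕ) : s18hq a e R ≠ 0 := by
  intro h
  have := s18hk_coeff_hq_neg_one (R := R) a e
  rw [h, HahnSeries.coeff_zero] at this
  exact zero_ne_one this

theorem s18hk_order_hq_neg [Nontrivial R] (a : ℕ) [NeZero a] (e : ℕ) :
    (s18hq a e R).order < 0 := by
  have h2 : (s18hq a e R).order ≤ -1 :=
    HahnSeries.order_le_of_coeff_ne_zero (by rw [s18hk_coeff_hq_neg_one]; exact one_ne_zero)
  omega

end Hauptmodul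

/-! ### the Hauptmodul is a good coordinate -/

section Final

variable {A₀ : Type*} [CommRing A₀] [IsDomain A₀] [IsDiscreteValuationRing A₀] [CharZero A₀]
variable {L₀ : Type*} [Field L₀] [Algebra A₀ L₀] [IsFractionRing A₀ L₀]
variable {ϖ : A₀}

/-- `h_a` is an integral series with a pole mod `ϖ` -/
theorem s18hk_pole (F : IntermediateField L₀ (LaurentSeries L₀)) (a : ℕ) [NeZero a] (e : ℕ)
    (hmem : s18hq a e L₀ ∈ F) :
    S18VPole (A₀ := A₀) F ⟨s18hq a e L₀, hmem⟩ (s18hq a e A₀) := by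
  refine ⟨(s18hk_coeffMap_hq _ a e).symm, ?_⟩
  have h1 : s18vRes A₀ (s18hq a e A₀) = s18hq a e (ResidueField A₀) := s18hk_coeffMap_hq _ a e
  rw [h1]
  exact s18hk_order_hq_neg a e

/-- `j ∈ L₀(h₂)` -/
theorem s18hk_j_mem_two (F : IntermediateField L₀ (LaurentSeries L₀))
    (hid2 : jqModC ℤ * s18hq 2 24 ℤ ^ 2 = (s18hq 2 24 ℤ + 256) ^ 3)
    (hj : jqModC L₀ ∈ F) (hmem : s18hq 2 24 L₀ ∈ F) :
    (⟨jqModC L₀, hj⟩ : F) ∈ L₀⟮(⟨s18hq 2 24 L₀, hmem⟩ : F)⟯ := by
  have h1 := congrArg (coeffMap (Int.castRingHom L₀)) hid2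
  rw [map_mul, map_pow, map_pow, map_add, coeffMap_jqModC, s18hk_coeffMap_hq, map_ofNat] at h1
  have h0 : (⟨s18hq 2 24 L₀, hmem⟩ : F) ≠ 0 := fun h =>
    s18hk_hq_ne_zero (R := L₀) 2 24 (congrArg Subtype.val h)
  have h2 : (⟨jqModC L₀, hj⟩ : F) * (⟨s18hq 2 24 L₀, hmem⟩ : F) ^ 2 =
      ((⟨s18hq 2 24 L₀, hmem⟩ : F) + 256) ^ 3 := Subtype.ext (by push_cast; exact h1)
  have h3 : (⟨jqModC L₀, hj⟩ : F) =
      ((⟨s18hq 2 24 L₀, hmem⟩ : F) + 256) ^ 3 / (⟨s18hq 2 24 L₀, hmem⟩ : F) ^ 2 := by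
    rw [eq_div_iff (pow_ne_zero 2 h0), h2]
  rw [h3]
  have hh := mem_adjoin_simple_self L₀ (⟨s18hq 2 24 L₀, hmem⟩ : F)
  exact div_mem (pow_mem (add_mem hh (ofNat_mem _ 256)) 3) (pow_mem hh 2)

/-- `j ∈ L₀(h₃)` -/
theorem s18hk_j_mem_three (F : IntermediateField L₀ (LaurentSeries L₀))
    (hid3 : jqModC ℤ * s18hq 3 12 ℤ ^ 3 = (s18hq 3 12 ℤ + 27) * (s18hq 3 12 ℤ + 243) ^ 3)
    (hj : jqModC L₀ ∈ F) (hmem : s18hq 3 12 L₀ ∈ F) :
    (⟨jqModC L₀, hj⟩ : F) ∈ L₀⟮(⟨s18hq 3 12 L₀, hmem⟩ : F)⟯ := by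
  have h1 := congrArg (coeffMap (Int.castRingHom L₀)) hid3
  rw [map_mul, map_pow, map_mul, map_pow, map_add, map_add, coeffMap_jqModC, s18hk_coeffMap_hq,
    map_ofNat, map_ofNat] at h1
  have h0 : (⟨s18hq 3 12 L₀, hmem⟩ : F) ≠ 0 := fun h =>
    s18hk_hq_ne_zero (R := L₀) 3 12 (congrArg Subtype.val h)
  have h2 : (⟨jqModC L₀, hj⟩ : F) * (⟨s18hq 3 12 L₀, hmem⟩ : F) ^ 3 =
      ((⟨s18hq 3 12 L₀, hmem⟩ : F) + 27) * ((⟨s18hq 3 12 L₀, hmem⟩ : F) + 243) ^ 3 :=
    Subtype.ext (by push_cast; exact h1)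
  have h3 : (⟨jqModC L₀, hj⟩ : F) =
      ((⟨s18hq 3 12 L₀, hmem⟩ : F) + 27) * ((⟨s18hq 3 12 L₀, hmem⟩ : F) + 243) ^ 3 /
        (⟨s18hq 3 12 L₀, hmem⟩ : F) ^ 3 := by
    rw [eq_div_iff (pow_ne_zero 3 h0), h2]
  rw [h3]
  have hh := mem_adjoin_simple_self L₀ (⟨s18hq 3 12 L₀, hmem⟩ : F)
  exact div_mem (mul_mem (add_mem hh (ofNat_mem _ 27)) (pow_mem (add_mem hh (ofNat_mem _ 243)) 3))
    (pow_mem hh 3)

/-- **(package H / V, row Hc)** `h_a` is a good coordinate of `F_{L₀}(M)`: `s18h_coord` of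
`Core/Small.lean` with its black boxes (`s18h_identity_two`, `s18h_identity_three`, `s18h_mem`,
`s18v_coord_j`) as explicit hypotheses. -/
theorem s18hk_coord (hϖ : Irreducible ϖ) (a : ℕ) [NeZero a] (ha : a = 2 ∨ a = 3)
    (M : ℕ) [NeZero M]
    (hid2 : jqModC ℤ * s18hq 2 24 ℤ ^ 2 = (s18hq 2 24 ℤ + 256) ^ 3)
    (hid3 : jqModC ℤ * s18hq 3 12 ℤ ^ 3 = (s18hq 3 12 ℤ + 27) * (s18hq 3 12 ℤ + 243) ^ 3)
    (hmem : s18hq a (s18hExp a) L₀ ∈ modularFunctionFieldFullC L₀ M)
    (hcj : S18Coord hϖ (modularFunctionFieldFullC L₀ M) ⟨jqModC L₀, jqModC_mem_full L₀ M⟩) :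
    S18Coord hϖ (modularFunctionFieldFullC L₀ M) ⟨s18hq a (s18hExp a) L₀, hmem⟩ := by
  refine s18hk_coord_of_coord hϖ _ _ _ (jqModC A₀) (s18hq a (s18hExp a) A₀) (s18v_pole_j' M)
    (s18hk_pole _ a (s18hExp a) hmem) ?_ hcj
  rcases ha with rfl | rfl
  · exact s18hk_j_mem_two _ hid2 _ hmem
  · exact s18hk_j_mem_three _ hid3 _ hmem

end Final

end Fermat.Agent.S18
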