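/-
S18 / package H, leaf H-C (row 468, helper26): the finite coefficient checks `s18hc_two`, `s18hc_two'`,
`s18hc_three`, `s18hc_three'` (statements VERBATIM from `S18/H/Spec.lean`).

Truncated power series over `ℤ` are `List ℤ` (`s18tsOf f n` = the first `n` coefficients of `f`);
`s18tsMul`, `s18tsAdd`, `s18tsSub`, `s18tsPow`, `s18tsExpand` are COMPUTABLE and correct
(`s18tsOf_mul`, ...).  `etaProd` agrees below `X^n` with the finite product `∏_{k<n} (1 - X^(k+1))`
(`s18ts_coeff_etaProd`, from S24 `jexp_eventually_coeff_etaPoly`); the coefficients of `eisenstein4`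
are divisor sums (`s18tsOf_E`).  Each check is ONE kernel evaluation (`decide +kernel`, about 1 s).
-/
import Fermat.Agent.S18.H.Defs
import Fermat.Agent.S24.JExp

set_option autoImplicit false

namespace Fermat.Agent.S18

/-! ### computable truncated arithmetic on `List ℤ` -/

/-- truncated product -/
def s18tsMul (n : ℕ) (a b : List ℤ) : List ℤ :=
  (List.range n).map fun i =>
    ((List.range (i + 1)).map fun j => a.getD j 0 * b.getD (i - j) 0).sum

def s18tsAdd (a b : List ℤ) : List ℤ := List.zipWith (· + ·) a b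

def s18tsSub (a b : List ℤ) : List ℤ := List.zipWith (· - ·) a b

def s18tsC (n : ℕ) (c : ℤ) : List ℤ := (List.range n).map fun i => if i = 0 then c else 0

def s18tsPow (n : ℕ) (a : List ℤ) : ℕ → List ℤ
  | 0 => s18tsC n 1
  | k + 1 => s18tsMul n (s18tsPow n a k) a

def s18tsX (n : ℕ) : List ℤ := (List.range n).map fun i => if i = 1 then 1 else 0

def s18tsExpand (a n : ℕ) (l : List ℤ) : List ℤ :=
  (List.range n).map fun i => if a ∣ i then l.getD (i / a) 0 else 0

/-- `1 - X^m` truncated -/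
def s18tsFac (n m : ℕ) : List ℤ :=
  (List.range n).map fun i => (if i = 0 then 1 else 0) - (if i = m then 1 else 0)

/-- the finite product `∏_{k < m} (1 - X^(k+1))` truncated -/
def s18tsEta (n : ℕ) : ℕ → List ℤ
  | 0 => s18tsC n 1
  | m + 1 => s18tsMul n (s18tsEta n m) (s18tsFac n (m + 1))

def s18tsSigma (i : ℕ) : ℤ :=
  ((List.range (i + 1)).map fun d => if d ∣ i then (d : ℤ) ^ 3 else 0).sum

def s18tsE (n : ℕ) : List ℤ := (List.range n).map fun i => if i = 0 then 1 else 240 * s18tsSigma i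

end Fermat.Agent.S18

noncomputable section

namespace Fermat.Agent.S18

open ModularCurve PowerSeries

/-- the first `n` coefficients -/
def s18tsOf (f : PowerSeries ℤ) (n : ℕ) : List ℤ := (List.range n).map fun i => coeff i f

theorem s18tsOf_getD (f : PowerSeries ℤ) {n i : ℕ} (hi : i < n) :
    (s18tsOf f n).getD i 0 = coeff i f := by
  unfold s18tsOf
  rw [List.getD_eq_getElem?_getD, List.getElem?_map, List.getElem?_range hi]
  rfl

theorem s18ts_sum_range (m : ℕ) (g : ℕ → ℤ) :
    ((List.range m).map g).sum = ∑ j ∈ Finset.range m, g j := by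
  induction m with
  | zero => simp
  | succ m ih => rw [List.range_succ, List.map_append, List.sum_append, ih, Finset.sum_range_succ]; simp

theorem s18tsOf_add (f g : PowerSeries ℤ) (n : ℕ) :
    s18tsOf (f + g) n = s18tsAdd (s18tsOf f n) (s18tsOf g n) := by
  unfold s18tsOf s18tsAdd
  rw [List.zipWith_map, List.zipWith_self]
  simp

theorem s18tsOf_sub (f g : PowerSeries ℤ) (n : ℕ) :
    s18tsOf (f - g) n = s18tsSub (s18tsOf f n) (s18tsOf g n) := by
  unfold s18tsOf s18tsSub
  rw [List.zipWith_map, List.zipWith_self]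
  simp

theorem s18tsOf_mul (f g : PowerSeries ℤ) (n : ℕ) :
    s18tsOf (f * g) n = s18tsMul n (s18tsOf f n) (s18tsOf g n) := by
  unfold s18tsMul
  conv_lhs => unfold s18tsOf
  refine List.map_congr_left fun i hi => ?_
  rw [List.mem_range] at hi
  rw [s18ts_sum_range, coeff_mul, Finset.Nat.sum_antidiagonal_eq_sum_range_succ_mk]
  refine Finset.sum_congr rfl fun j hj => ?_
  rw [Finset.mem_range] at hj
  rw [s18tsOf_getD f (by omega), s18tsOf_getD g (by omega)]

theorem s18tsOf_intCast (c : ℤ) (n : ℕ) : s18tsOf (C c) n = s18tsC n c := by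
  unfold s18tsOf s18tsC
  refine List.map_congr_left fun i _ => ?_
  rw [coeff_C]

theorem s18tsOf_one (n : ℕ) : s18tsOf 1 n = s18tsC n 1 := by
  rw [← s18tsOf_intCast, map_one]

theorem s18tsOf_ofNat (c : ℕ) [c.AtLeastTwo] (n : ℕ) :
    s18tsOf (no_index (OfNat.ofNat c)) n = s18tsC n (OfNat.ofNat c) := by
  rw [← s18tsOf_intCast, map_ofNat]

theorem s18tsOf_pow (f : PowerSeries ℤ) (n k : ℕ) :
    s18tsOf (f ^ k) n = s18tsPow n (s18tsOf f n) k := by
  induction k with
  | zero => rw [pow_zero, s18tsOf_one]; rfl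
  | succ k ih => rw [pow_succ, s18tsOf_mul, ih]; rfl

theorem s18tsOf_X (n : ℕ) : s18tsOf X n = s18tsX n := by
  unfold s18tsOf s18tsX
  refine List.map_congr_left fun i _ => ?_
  rw [coeff_X]

theorem s18tsOf_expand (a : ℕ) (f : PowerSeries ℤ) (n : ℕ) :
    s18tsOf (s18hExpand a f) n = s18tsExpand a n (s18tsOf f n) := by
  unfold s18tsExpand
  conv_lhs => unfold s18tsOf
  refine List.map_congr_left fun i hi => ?_
  rw [List.mem_range] at hi
  rw [s18hExpand_coeff]
  split_ifs with h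
  · rw [s18tsOf_getD f (lt_of_le_of_lt (Nat.div_le_self i a) hi)]
  · rfl

theorem s18tsOf_fac (n m : ℕ) : s18tsOf (1 - X ^ m) n = s18tsFac n m := by
  unfold s18tsOf s18tsFac
  refine List.map_congr_left fun i _ => ?_
  rw [map_sub, coeff_one, coeff_X_pow]

/-- the finite products -/
theorem s18tsOf_etaFin (n m : ℕ) :
    s18tsOf (∏ k ∈ Finset.range m, (1 - X ^ (k + 1))) n = s18tsEta n m := by
  induction m with
  | zero => rw [Finset.prod_range_zero, s18tsOf_one]; rfl
  | succ m ih => rw [Finset.prod_range_succ, s18tsOf_mul, ih, s18tsOf_fac]; rfl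

/-- the coefficients of `etaProd` below `n` are those of the `n`-th partial product -/
theorem s18ts_coeff_etaProd {n i : ℕ} (hi : i < n) :
    coeff i etaProd = coeff i (∏ k ∈ Finset.range n, (1 - X ^ (k + 1)) : PowerSeries ℤ) := by
  have hstep : ∀ N : ℕ, i < N + 1 →
      coeff i (∏ k ∈ Finset.range (N + 1), (1 - X ^ (k + 1)) : PowerSeries ℤ) =
        coeff i (∏ k ∈ Finset.range N, (1 - X ^ (k + 1)) : PowerSeries ℤ) := by
    intro N hN
    rw [Finset.prod_range_succ, mul_sub, mul_one, map_sub, coeff_mul_X_pow', if_neg (by omega),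
      sub_zero]
  have hstab : ∀ N : ℕ, n ≤ N →
      coeff i (∏ k ∈ Finset.range N, (1 - X ^ (k + 1)) : PowerSeries ℤ) =
        coeff i (∏ k ∈ Finset.range n, (1 - X ^ (k + 1)) : PowerSeries ℤ) := by
    intro N hN
    induction N, hN using Nat.le_induction with
    | base => rfl
    | succ N hN ih => rw [hstep N (by omega), ih]
  obtain ⟨N, hN⟩ := (Fermat.Agent.S24.jexp_eventually_coeff_etaPoly i).exists_forall_of_atTop
  have h1 := hN (max N n) (le_max_left _ _)
  rw [← Polynomial.coeff_coe, Fermat.Agent.S24.jexp_coe_etaPoly] at h1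
  rw [← h1, hstab _ (le_max_right _ _)]

theorem s18tsOf_etaProd (n : ℕ) : s18tsOf etaProd n = s18tsEta n n := by
  rw [← s18tsOf_etaFin]
  unfold s18tsOf
  refine List.map_congr_left fun i hi => ?_
  rw [List.mem_range] at hi
  exact s18ts_coeff_etaProd hi

theorem s18ts_sigma (i : ℕ) (hi : i ≠ 0) : s18tsSigma i = ∑ d ∈ i.divisors, (d : ℤ) ^ 3 := by
  unfold s18tsSigma
  rw [s18ts_sum_range, ← Finset.sum_filter]
  refine Finset.sum_congr ?_ fun _ _ => rfl
  ext d
  rw [Finset.mem_filter, Finset.mem_range, Nat.mem_divisors]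
  constructor
  · rintro ⟨-, h⟩
    exact ⟨h, hi⟩
  · rintro ⟨h, -⟩
    exact ⟨Nat.lt_succ_of_le (Nat.le_of_dvd (Nat.pos_of_ne_zero hi) h), h⟩

theorem s18tsOf_E (n : ℕ) : s18tsOf s18hE n = s18tsE n := by
  unfold s18tsOf s18tsE s18hE eisenstein4
  refine List.map_congr_left fun i _ => ?_
  rw [coeff_mk]
  split_ifs with h
  · rfl
  · rw [s18ts_sigma i h]

theorem s18tsOf_D (n : ℕ) :
    s18tsOf s18hD n = s18tsMul n (s18tsX n) (s18tsPow n (s18tsEta n n) 24) := by
  unfold s18hD
  rw [s18tsOf_mul, s18tsOf_X, s18tsOf_pow, s18tsOf_etaProd]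

theorem s18ts_coeff_eq_zero {G : PowerSeries ℤ} {n : ℕ} (h : s18tsOf G n = List.replicate n 0)
    {i : ℕ} (hi : i < n) : coeff i G = 0 := by
  rw [← s18tsOf_getD G hi, h, List.getD_eq_getElem?_getD, List.getElem?_replicate_of_lt hi]
  rfl

/-! ### the four checks -/

set_option maxRecDepth 100000 in
theorem s18hc_two (n : ℕ) (hn : n ≤ 9) :
    PowerSeries.coeff n (s18hE ^ 3 * s18hD * s18hExpand 2 s18hD -
      (s18hD + 256 * s18hExpand 2 s18hD) ^ 3) = 0 := by
  refine s18ts_coeff_eq_zero (n := 10) ?_ (by omega)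
  simp only [s18tsOf_sub, s18tsOf_mul, s18tsOf_pow, s18tsOf_add, s18tsOf_ofNat, s18tsOf_expand,
    s18tsOf_E, s18tsOf_D]
  decide +kernel

set_option maxRecDepth 100000 in
theorem s18hc_two' (n : ℕ) (hn : n ≤ 9) :
    PowerSeries.coeff n (s18hExpand 2 s18hE ^ 3 * s18hD * s18hExpand 2 s18hD -
      (s18hD + 16 * s18hExpand 2 s18hD) ^ 3) = 0 := by
  refine s18ts_coeff_eq_zero (n := 10) ?_ (by omega)
  simp only [s18tsOf_sub, s18tsOf_mul, s18tsOf_pow, s18tsOf_add, s18tsOf_ofNat, s18tsOf_expand,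
    s18tsOf_E, s18tsOf_D]
  decide +kernel

set_option maxRecDepth 100000 in
theorem s18hc_three (n : ℕ) (hn : n ≤ 16) :
    PowerSeries.coeff n
      ((s18hD ^ 2 + 196830 * s18hD * s18hExpand 3 s18hD + 387420489 * s18hExpand 3 s18hD ^ 2) ^ 2 -
        s18hD * s18hExpand 3 s18hD *
          (756 * s18hD - s18hE ^ 3 + 19131876 * s18hExpand 3 s18hD) ^ 2) = 0 := by
  refine s18ts_coeff_eq_zero (n := 17) ?_ (by omega)
  simp only [s18tsOf_sub, s18tsOf_mul, s18tsOf_pow, s18tsOf_add, s18tsOf_ofNat, s18tsOf_expand,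
    s18tsOf_E, s18tsOf_D]
  decide +kernel

set_option maxRecDepth 100000 in
theorem s18hc_three' (n : ℕ) (hn : n ≤ 16) :
    PowerSeries.coeff n
      ((s18hD ^ 2 + 270 * s18hD * s18hExpand 3 s18hD + 729 * s18hExpand 3 s18hD ^ 2) ^ 2 -
        s18hD * s18hExpand 3 s18hD *
          (36 * s18hD + 756 * s18hExpand 3 s18hD - s18hExpand 3 s18hE ^ 3) ^ 2) = 0 := by
  refine s18ts_coeff_eq_zero (n := 17) ?_ (by omega)
  simp only [s18tsOf_sub, s18tsOf_mul, s18tsOf_pow, s18tsOf_add, s18tsOf_ofNat, s18tsOf_expand,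
    s18tsOf_E, s18tsOf_D]
  decide +kernel

end Fermat.Agent.S18
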