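/-
S18 / package H, leaf H-F (row 467, helper26): the forms `E₄`, `E₄(Nτ)`, `Δ`, `Δ(Nτ)` on `Γ₀(N)` with
their `q`-expansions, and the Sturm bound in formal shape (statements VERBATIM from `S18/H/Spec.lean`).

* `s18hfRes N f`   : restriction of a level one form to `Γ₀(N)`;
* `s18hfRaise N f` : `f ∣[k] diag(N, 1)` on `Γ₀(N)` (as S23 `exists_modularForm_uN`), with
  `q`-expansion `N^(k-1) f(q^N)` (S23 `qExpansion_slash_heckeDiagMatrix_coeff`);
* `q`-expansions of `E₄` (S24 `jexp_qExpansion_E4`) and of `Δ = q ∏ (1 - qⁿ)^24`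
  (S28 `dexp_hasSum_D_pow`, S24 `jexp_discriminant_eq`);
* Sturm: Prelude `ModularForm.sturm_bound_Gamma0` + S24 `index_Gamma0`.
-/
import Fermat.Agent.S18.H.Defs
import Fermat.Agent.S24.JExp
import Fermat.Agent.S24.CountPsi
import Fermat.Agent.S28.DeltaExp
import Fermat.Agent.S23.UNForm
import Fermat.Agent.S23.UNqExp
import Fermat.Prelude.Thm_ModularForm_sturm_bound_Gamma0
import Fermat.Prelude.Thm_CongruenceSubgroup_one_mem_strictPeriods_Gamma0

set_option autoImplicit false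
set_option linter.unusedSectionVars false

noncomputable section

namespace Fermat.Agent.S18

open UpperHalfPlane ModularForm ModularCurve
open scoped MatrixGroups Manifold ModularForm

local notation "Γ₀(" N ")" => CongruenceSubgroup.Gamma0 N
local notation "𝕢" => Function.Periodic.qParam

section Forms

variable (N : ℕ) [NeZero N]

theorem s18hf_gamma0_le :
    ((Γ₀(N) : Subgroup SL(2, ℤ)).map (Matrix.SpecialLinearGroup.mapGL ℝ) :
      Subgroup (GL (Fin 2) ℝ)) ≤ 𝒮ℒ := by
  rintro _ ⟨γ, -, rfl⟩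
  exact ⟨γ, rfl⟩

/-- restriction of a level one form to `Γ₀(N)` -/
def s18hfRes {k : ℤ} (f : ModularForm 𝒮ℒ k) : ModularForm Γ₀(N) k where
  toFun := f
  holo' := f.holo'
  bdd_at_cusps' := fun hc => f.bdd_at_cusps' (hc.mono (s18hf_gamma0_le N))
  slash_action_eq' := fun γ hγ => f.slash_action_eq' γ (s18hf_gamma0_le N hγ)

theorem s18hfRes_coe {k : ℤ} (f : ModularForm 𝒮ℒ k) : ⇑(s18hfRes N f) = ⇑f := rfl

/-- `f ∣[k] diag(N, 1)` on `Γ₀(N)` -/
def s18hfRaise {k : ℤ} (f : ModularForm 𝒮ℒ k) : ModularForm Γ₀(N) k where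
  toFun := ModularForm.translate f (heckeDiagMatrix N)
  holo' := (ModularForm.translate f (heckeDiagMatrix N)).holo'
  bdd_at_cusps' := fun hc =>
    (ModularForm.translate f (heckeDiagMatrix N)).bdd_at_cusps'
      (hc.mono (Fermat.Agent.S23.unform_gamma0_le N))
  slash_action_eq' := fun γ hγ =>
    (ModularForm.translate f (heckeDiagMatrix N)).slash_action_eq' γ
      (Fermat.Agent.S23.unform_gamma0_le N hγ)

theorem s18hfRaise_coe {k : ℤ} (f : ModularForm 𝒮ℒ k) :
    ⇑(s18hfRaise N f) = ⇑f ∣[k] heckeDiagMatrix N := by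
  show ⇑(ModularForm.translate f (heckeDiagMatrix N)) = _
  rw [ModularForm.coe_translate]

theorem s18hf_qExpansion_raise {k : ℤ} (f : ModularForm 𝒮ℒ k) (n : ℕ) :
    (qExpansion 1 (s18hfRaise N f)).coeff n =
      if N ∣ n then (N : ℂ) ^ (k - 1) * (qExpansion 1 f).coeff (n / N) else 0 := by
  rw [s18hfRaise_coe]
  exact Fermat.Agent.S23.qExpansion_slash_heckeDiagMatrix_coeff
    (by simpa using SlashInvariantFormClass.periodic_comp_ofComplex f one_mem_strictPeriods_SL)
    (ModularFormClass.holo f) (ModularFormClass.bdd_at_infty f) k (NeZero.ne N) n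

/-! ### the `q`-expansion of `Δ` -/

/-- `Δ` as a level one modular form -/
def s18hfDelta : ModularForm 𝒮ℒ 12 := ModularFormClass.modularForm CuspForm.discriminant

theorem s18hfDelta_apply (τ : ℍ) : s18hfDelta τ = ModularForm.discriminant τ := rfl

theorem s18hf_coeff_D (m : ℕ) :
    PowerSeries.coeff m (s18hD.map (Int.castRingHom ℂ)) =
      if m = 0 then 0 else ((PowerSeries.coeff (m - 1) dedekindEtaUnit : ℤ) : ℂ) := by
  rw [PowerSeries.coeff_map, eq_intCast, s18hD]
  rcases m with _ | m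
  · rw [if_pos rfl, PowerSeries.coeff_zero_eq_constantCoeff, map_mul, PowerSeries.constantCoeff_X,
      zero_mul, Int.cast_zero]
  · rw [if_neg (Nat.succ_ne_zero m), PowerSeries.coeff_succ_X_mul, Nat.add_sub_cancel,
      dedekindEtaUnit]

theorem s18hf_qExpansion_delta :
    qExpansion 1 s18hfDelta = s18hD.map (Int.castRingHom ℂ) := by
  ext m
  refine (ModularFormClass.qExpansion_coeff_unique (f := s18hfDelta) one_pos
    one_mem_strictPeriods_SL (c := fun m => PowerSeries.coeff m (s18hD.map (Int.castRingHom ℂ)))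
    (fun τ => ?_) m).symm
  rw [s18hfDelta_apply, Fermat.Agent.S24.jexp_discriminant_eq]
  have h1 := (Fermat.Agent.S28.dexp_hasSum_D_pow τ).mul_left (𝕢 1 (τ : ℂ))
  rw [← hasSum_nat_add_iff' 1]
  simp only [Finset.range_one, Finset.sum_singleton, s18hf_coeff_D, if_pos, zero_smul, sub_zero]
  refine h1.congr_fun fun n => ?_
  rw [if_neg (Nat.succ_ne_zero n), Nat.add_sub_cancel, smul_eq_mul, pow_succ]
  ring

/-! ### the four forms -/

/-- `E₄` on `Γ₀(N)` -/
theorem s18hf_E : ∃ f : ModularForm (CongruenceSubgroup.Gamma0 N) 4,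
    qExpansion 1 f = s18hE.map (Int.castRingHom ℂ) :=
  ⟨s18hfRes N E₄, by rw [s18hfRes_coe, Fermat.Agent.S24.jexp_qExpansion_E4]; rfl⟩

/-- `Δ` on `Γ₀(N)` -/
theorem s18hf_D : ∃ f : ModularForm (CongruenceSubgroup.Gamma0 N) 12,
    qExpansion 1 f = s18hD.map (Int.castRingHom ℂ) :=
  ⟨s18hfRes N s18hfDelta, by rw [s18hfRes_coe, s18hf_qExpansion_delta]⟩

/-- level raising of a form with integral `q`-expansion -/
theorem s18hf_raise {k : ℤ} (f : ModularForm 𝒮ℒ k) (G : PowerSeries ℤ)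
    (hf : qExpansion 1 f = G.map (Int.castRingHom ℂ)) :
    ∃ g : ModularForm (CongruenceSubgroup.Gamma0 N) k,
      qExpansion 1 g = (s18hExpand N G).map (Int.castRingHom ℂ) := by
  have hN : (N : ℂ) ≠ 0 := Nat.cast_ne_zero.mpr (NeZero.ne N)
  refine ⟨((N : ℂ) ^ (k - 1))⁻¹ • s18hfRaise N f, ?_⟩
  rw [FunLike.coe_smul,
    ModularForm.qExpansion_smul one_pos (CongruenceSubgroup.one_mem_strictPeriods_Gamma0 N)]
  ext n
  rw [PowerSeries.coeff_smul, s18hf_qExpansion_raise, hf, PowerSeries.coeff_map,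
    PowerSeries.coeff_map, s18hExpand_coeff, smul_eq_mul]
  split_ifs with h
  · rw [← mul_assoc, inv_mul_cancel₀ (zpow_ne_zero _ hN), one_mul]
  · rw [mul_zero, map_zero]

/-- `E₄(Nτ)` on `Γ₀(N)` -/
theorem s18hf_EN : ∃ f : ModularForm (CongruenceSubgroup.Gamma0 N) 4,
    qExpansion 1 f = (s18hExpand N s18hE).map (Int.castRingHom ℂ) :=
  s18hf_raise N E₄ s18hE
    (by rw [Fermat.Agent.S24.jexp_qExpansion_E4]; rfl)

/-- `Δ(Nτ)` on `Γ₀(N)` -/
theorem s18hf_DN : ∃ f : ModularForm (CongruenceSubgroup.Gamma0 N) 12,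
    qExpansion 1 f = (s18hExpand N s18hD).map (Int.castRingHom ℂ) :=
  s18hf_raise N s18hfDelta s18hD s18hf_qExpansion_delta

/-- the Sturm bound, formal shape -/
theorem s18hf_sturm {k : ℤ} (f : ModularForm (CongruenceSubgroup.Gamma0 N) k) (G : PowerSeries ℤ)
    (hq : qExpansion 1 f = G.map (Int.castRingHom ℂ))
    (h0 : ∀ n : ℕ, n ≤ (k * dedekindPsi N).toNat / 12 → PowerSeries.coeff n G = 0) : G = 0 := by
  have hf : f = 0 := by
    refine ModularForm.sturm_bound_Gamma0 N f fun n hn => ?_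
    rw [Fermat.Agent.S24.index_Gamma0] at hn
    rw [hq, PowerSeries.coeff_map, h0 n hn, map_zero]
  rw [hf] at hq
  have h1 : qExpansion 1 (⇑(0 : ModularForm (CongruenceSubgroup.Gamma0 N) k)) = 0 :=
    qExpansion_zero 1
  rw [h1] at hq
  ext n
  have h2 := congrArg (PowerSeries.coeff n) hq
  rw [PowerSeries.coeff_map, map_zero, eq_intCast] at h2
  rw [map_zero]
  exact_mod_cast h2.symm

end Forms

end Fermat.Agent.S18
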