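/-
S18 / package H, leaf H-P (row 469, helper26): the four POWER SERIES identities `s18h_ps_two`,
`s18h_ps_two'`, `s18h_ps_three`, `s18h_ps_three'` (statements VERBATIM from `S18/H/Spec.lean`).

`S18HasQ N k G` : `G ∈ ℤ⟦X⟧` is the `q`-expansion of a modular form of weight `k` on `Γ₀(N)`; closed
under `*`, `+`, `-`, numerals, powers (Mathlib `ModularForm.qExpansion_mul`, ...).  Both sides of each
identity are `S18HasQ 2 36` resp. `S18HasQ 3 48`; their difference vanishes by the Sturm bound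
(`s18hf_sturm`, `ψ(2) = 3`, `ψ(3) = 4`) and the coefficient checks of `H/Compute.lean`.
-/
import Fermat.Agent.S18.H.Forms
import Fermat.Agent.S18.H.Compute

set_option autoImplicit false
set_option linter.unusedSectionVars false

noncomputable section

namespace Fermat.Agent.S18

open UpperHalfPlane ModularForm ModularCurve
open scoped MatrixGroups Manifold ModularForm

/-- `G ∈ ℤ⟦X⟧` is the `q`-expansion of a modular form of weight `k` on `Γ₀(N)` -/
def S18HasQ (N : ℕ) (k : ℤ) (G : PowerSeries ℤ) : Prop :=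
  ∃ f : ModularForm (CongruenceSubgroup.Gamma0 N) k,
    qExpansion 1 f = G.map (Int.castRingHom ℂ)

section HasQ

variable {N : ℕ} [NeZero N] {k k₁ k₂ : ℤ} {G G₁ G₂ : PowerSeries ℤ}

theorem S18HasQ.cast (h : S18HasQ N k G) {k' : ℤ} (hk : k = k') : S18HasQ N k' G := hk ▸ h

theorem S18HasQ.mul (h₁ : S18HasQ N k₁ G₁) (h₂ : S18HasQ N k₂ G₂) :
    S18HasQ N (k₁ + k₂) (G₁ * G₂) := by
  obtain ⟨f₁, hf₁⟩ := h₁
  obtain ⟨f₂, hf₂⟩ := h₂
  refine ⟨f₁.mul f₂, ?_⟩
  rw [ModularForm.qExpansion_mul one_pos (CongruenceSubgroup.one_mem_strictPeriods_Gamma0 N),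
    hf₁, hf₂, map_mul]

theorem S18HasQ.add (h₁ : S18HasQ N k G₁) (h₂ : S18HasQ N k G₂) : S18HasQ N k (G₁ + G₂) := by
  obtain ⟨f₁, hf₁⟩ := h₁
  obtain ⟨f₂, hf₂⟩ := h₂
  refine ⟨f₁ + f₂, ?_⟩
  rw [FunLike.coe_add,
    ModularForm.qExpansion_add one_pos (CongruenceSubgroup.one_mem_strictPeriods_Gamma0 N),
    hf₁, hf₂, map_add]

theorem S18HasQ.sub (h₁ : S18HasQ N k G₁) (h₂ : S18HasQ N k G₂) : S18HasQ N k (G₁ - G₂) := by
  obtain ⟨f₁, hf₁⟩ := h₁
  obtain ⟨f₂, hf₂⟩ := h₂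
  refine ⟨f₁ - f₂, ?_⟩
  rw [FunLike.coe_sub,
    ModularForm.qExpansion_sub one_pos (CongruenceSubgroup.one_mem_strictPeriods_Gamma0 N),
    hf₁, hf₂, map_sub]

theorem S18HasQ.ofNat_mul (c : ℕ) [c.AtLeastTwo] (h : S18HasQ N k G) :
    S18HasQ N k (OfNat.ofNat c * G) := by
  obtain ⟨f, hf⟩ := h
  refine ⟨(OfNat.ofNat c : ℂ) • f, ?_⟩
  rw [FunLike.coe_smul,
    ModularForm.qExpansion_smul one_pos (CongruenceSubgroup.one_mem_strictPeriods_Gamma0 N), hf,
    map_mul, map_ofNat]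
  ext n
  rw [PowerSeries.coeff_smul, smul_eq_mul, ← map_ofNat (PowerSeries.C (R := ℂ)) c,
    PowerSeries.coeff_C_mul]

theorem S18HasQ.pow (h : S18HasQ N k G) (n : ℕ) : S18HasQ N (n * k) (G ^ n) := by
  obtain ⟨f, hf⟩ := h
  induction n with
  | zero =>
    refine ⟨ModularForm.mcast (by simp) (1 : ModularForm (CongruenceSubgroup.Gamma0 N) 0), ?_⟩
    rw [ModularForm.qExpansion_mcast, ModularForm.qExpansion_one, pow_zero, map_one]
  | succ n ih =>
    have := (S18HasQ.mul ih ⟨f, hf⟩).cast (k' := ((n + 1 : ℕ) : ℤ) * k) (by push_cast; ring)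
    rwa [← pow_succ] at this

theorem S18HasQ.eq_zero (h : S18HasQ N k G)
    (h0 : ∀ n : ℕ, n ≤ (k * dedekindPsi N).toNat / 12 → PowerSeries.coeff n G = 0) : G = 0 := by
  obtain ⟨f, hf⟩ := h
  exact s18hf_sturm N f G hf h0

end HasQ

theorem s18hp_psi_two : dedekindPsi 2 = 3 := by
  have := Fermat.Agent.S24.dedekindPsi_prime_pow Nat.prime_two (k := 1) one_pos
  simpa using this

theorem s18hp_psi_three : dedekindPsi 3 = 4 := by
  have := Fermat.Agent.S24.dedekindPsi_prime_pow Nat.prime_three (k := 1) one_pos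
  simpa using this

/-! ### the four identities -/

theorem s18h_ps_two :
    s18hE ^ 3 * s18hD * s18hExpand 2 s18hD = (s18hD + 256 * s18hExpand 2 s18hD) ^ 3 := by
  have hE : S18HasQ 2 4 s18hE := s18hf_E 2
  have hD : S18HasQ 2 12 s18hD := s18hf_D 2
  have hD2 : S18HasQ 2 12 (s18hExpand 2 s18hD) := s18hf_DN 2
  have hl : S18HasQ 2 36 (s18hE ^ 3 * s18hD * s18hExpand 2 s18hD) :=
    (((hE.pow 3).mul hD).mul hD2).cast (by norm_num)
  have hr : S18HasQ 2 36 ((s18hD + 256 * s18hExpand 2 s18hD) ^ 3) :=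
    ((hD.add (hD2.ofNat_mul 256)).pow 3).cast (by norm_num)
  refine sub_eq_zero.mp ((hl.sub hr).eq_zero fun n hn => s18hc_two n ?_)
  rw [s18hp_psi_two] at hn
  exact hn

theorem s18h_ps_two' :
    s18hExpand 2 s18hE ^ 3 * s18hD * s18hExpand 2 s18hD =
      (s18hD + 16 * s18hExpand 2 s18hD) ^ 3 := by
  have hE2 : S18HasQ 2 4 (s18hExpand 2 s18hE) := s18hf_EN 2
  have hD : S18HasQ 2 12 s18hD := s18hf_D 2
  have hD2 : S18HasQ 2 12 (s18hExpand 2 s18hD) := s18hf_DN 2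
  have hl : S18HasQ 2 36 (s18hExpand 2 s18hE ^ 3 * s18hD * s18hExpand 2 s18hD) :=
    (((hE2.pow 3).mul hD).mul hD2).cast (by norm_num)
  have hr : S18HasQ 2 36 ((s18hD + 16 * s18hExpand 2 s18hD) ^ 3) :=
    ((hD.add (hD2.ofNat_mul 16)).pow 3).cast (by norm_num)
  refine sub_eq_zero.mp ((hl.sub hr).eq_zero fun n hn => s18hc_two' n ?_)
  rw [s18hp_psi_two] at hn
  exact hn

theorem s18h_ps_three :
    (s18hD ^ 2 + 196830 * s18hD * s18hExpand 3 s18hD + 387420489 * s18hExpand 3 s18hD ^ 2) ^ 2 =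
      s18hD * s18hExpand 3 s18hD *
        (756 * s18hD - s18hE ^ 3 + 19131876 * s18hExpand 3 s18hD) ^ 2 := by
  have hE : S18HasQ 3 4 s18hE := s18hf_E 3
  have hD : S18HasQ 3 12 s18hD := s18hf_D 3
  have hD3 : S18HasQ 3 12 (s18hExpand 3 s18hD) := s18hf_DN 3
  have hA : S18HasQ 3 24
      (s18hD ^ 2 + 196830 * s18hD * s18hExpand 3 s18hD + 387420489 * s18hExpand 3 s18hD ^ 2) :=
    (((hD.pow 2).cast (by norm_num)).add (((hD.ofNat_mul 196830).mul hD3).cast (by norm_num))).add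
      (((hD3.pow 2).ofNat_mul 387420489).cast (by norm_num))
  have hB : S18HasQ 3 12 (756 * s18hD - s18hE ^ 3 + 19131876 * s18hExpand 3 s18hD) :=
    ((hD.ofNat_mul 756).sub ((hE.pow 3).cast (by norm_num))).add (hD3.ofNat_mul 19131876)
  have hl := (hA.pow 2).cast (k' := 48) (by norm_num)
  have hr := ((hD.mul hD3).mul (hB.pow 2)).cast (k' := 48) (by norm_num)
  refine sub_eq_zero.mp ((hl.sub hr).eq_zero fun n hn => s18hc_three n ?_)
  rw [s18hp_psi_three] at hn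
  exact hn

theorem s18h_ps_three' :
    (s18hD ^ 2 + 270 * s18hD * s18hExpand 3 s18hD + 729 * s18hExpand 3 s18hD ^ 2) ^ 2 =
      s18hD * s18hExpand 3 s18hD *
        (36 * s18hD + 756 * s18hExpand 3 s18hD - s18hExpand 3 s18hE ^ 3) ^ 2 := by
  have hE3 : S18HasQ 3 4 (s18hExpand 3 s18hE) := s18hf_EN 3
  have hD : S18HasQ 3 12 s18hD := s18hf_D 3
  have hD3 : S18HasQ 3 12 (s18hExpand 3 s18hD) := s18hf_DN 3
  have hA : S18HasQ 3 24
      (s18hD ^ 2 + 270 * s18hD * s18hExpand 3 s18hD + 729 * s18hExpand 3 s18hD ^ 2) :=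
    (((hD.pow 2).cast (by norm_num)).add (((hD.ofNat_mul 270).mul hD3).cast (by norm_num))).add
      (((hD3.pow 2).ofNat_mul 729).cast (by norm_num))
  have hB : S18HasQ 3 12 (36 * s18hD + 756 * s18hExpand 3 s18hD - s18hExpand 3 s18hE ^ 3) :=
    ((hD.ofNat_mul 36).add (hD3.ofNat_mul 756)).sub ((hE3.pow 3).cast (by norm_num))
  have hl := (hA.pow 2).cast (k' := 48) (by norm_num)
  have hr := ((hD.mul hD3).mul (hB.pow 2)).cast (k' := 48) (by norm_num)
  refine sub_eq_zero.mp ((hl.sub hr).eq_zero fun n hn => s18hc_three' n ?_)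
  rw [s18hp_psi_three] at hn
  exact hn

end Fermat.Agent.S18
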