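/-
S18 / package H, leaf H-I: the four Laurent series identities (statements of `S18/Core/Small.lean`)
from the four power series identities `s18h_ps_*` (leaf H-P).

With `Δ = ι s18hD`, `Δ_a = ι (s18hExpand a s18hD) = qExpand a Δ`, `E = ι s18hE`:
`j Δ = E³`, `j_a Δ_a = E_a³`, `h₂ Δ₂ = Δ`, `h₃² Δ₃ = Δ`; multiply the targets by powers of `Δ`,
`Δ_a` and cancel (`ℤ((q))` is a domain).  For `a = 3`: `P(h) = A(h²) + h B(h²)`, `A² = h² B²` gives
`P(h) P(-h) = 0` and `P(-h) ≠ 0` because `q⁴ P(-h)` is a power series with constant term `2`.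
-/
import Fermat.Agent.S18.H.Ps

set_option autoImplicit false

noncomputable section

namespace Fermat.Agent.S18

open ModularCurve

/-! ### abstract cancellation lemmas -/

section Abstract

variable {R : Type*} [CommRing R] [NoZeroDivisors R]

theorem s18hi_core_two {j h Δ Δ₂ E : R} (e1 : j * Δ = E ^ 3) (e2 : h * Δ₂ = Δ)
    (e3 : E ^ 3 * Δ * Δ₂ = (Δ + 256 * Δ₂) ^ 3) (hΔ : Δ ≠ 0) (hΔ₂ : Δ₂ ≠ 0) :
    j * h ^ 2 = (h + 256) ^ 3 := by
  have key : j * h ^ 2 * (Δ * Δ₂ ^ 3) = (h + 256) ^ 3 * (Δ * Δ₂ ^ 3) := by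
    calc j * h ^ 2 * (Δ * Δ₂ ^ 3) = (j * Δ) * (h * Δ₂) ^ 2 * Δ₂ := by ring
      _ = Δ * (E ^ 3 * Δ * Δ₂) := by rw [e1, e2]; ring
      _ = Δ * (h * Δ₂ + 256 * Δ₂) ^ 3 := by rw [e3, e2]
      _ = (h + 256) ^ 3 * (Δ * Δ₂ ^ 3) := by ring
  exact mul_right_cancel₀ (mul_ne_zero hΔ (pow_ne_zero 3 hΔ₂)) key

theorem s18hi_core_two' {j₂ h Δ Δ₂ E₂ : R} (e1 : j₂ * Δ₂ = E₂ ^ 3) (e2 : h * Δ₂ = Δ)
    (e3 : E₂ ^ 3 * Δ * Δ₂ = (Δ + 16 * Δ₂) ^ 3) (hΔ₂ : Δ₂ ≠ 0) :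
    j₂ * h = (h + 16) ^ 3 := by
  have key : j₂ * h * Δ₂ ^ 3 = (h + 16) ^ 3 * Δ₂ ^ 3 := by
    calc j₂ * h * Δ₂ ^ 3 = (j₂ * Δ₂) * (h * Δ₂) * Δ₂ := by ring
      _ = E₂ ^ 3 * Δ * Δ₂ := by rw [e1, e2]
      _ = (h * Δ₂ + 16 * Δ₂) ^ 3 := by rw [e3, e2]
      _ = (h + 16) ^ 3 * Δ₂ ^ 3 := by ring
  exact mul_right_cancel₀ (pow_ne_zero 3 hΔ₂) key

theorem s18hi_core_three {j h Δ Δ₃ E : R} (e1 : j * Δ = E ^ 3) (e2 : h ^ 2 * Δ₃ = Δ)
    (e3 : (Δ ^ 2 + 196830 * Δ * Δ₃ + 387420489 * Δ₃ ^ 2) ^ 2 =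
      Δ * Δ₃ * (756 * Δ - E ^ 3 + 19131876 * Δ₃) ^ 2) (hΔ₃ : Δ₃ ≠ 0)
    (hsign : h ^ 4 - (756 - j) * h ^ 3 + 196830 * h ^ 2 - 19131876 * h + 387420489 ≠ 0) :
    j * h ^ 3 = (h + 27) * (h + 243) ^ 3 := by
  rw [← e1] at e3
  subst e2
  have key : ((h + 27) * (h + 243) ^ 3 - j * h ^ 3) *
      (h ^ 4 - (756 - j) * h ^ 3 + 196830 * h ^ 2 - 19131876 * h + 387420489) * Δ₃ ^ 4 = 0 := by
    linear_combination e3
  rcases mul_eq_zero.mp key with h1 | h1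
  · rcases mul_eq_zero.mp h1 with h2 | h2
    · exact (sub_eq_zero.mp h2).symm
    · exact absurd h2 hsign
  · exact absurd h1 (pow_ne_zero 4 hΔ₃)

theorem s18hi_core_three' {j₃ h Δ Δ₃ E₃ : R} (e1 : j₃ * Δ₃ = E₃ ^ 3) (e2 : h ^ 2 * Δ₃ = Δ)
    (e3 : (Δ ^ 2 + 270 * Δ * Δ₃ + 729 * Δ₃ ^ 2) ^ 2 =
      Δ * Δ₃ * (36 * Δ + 756 * Δ₃ - E₃ ^ 3) ^ 2) (hΔ₃ : Δ₃ ≠ 0)
    (hsign : h ^ 4 - 36 * h ^ 3 + 270 * h ^ 2 - (756 - j₃) * h + 729 ≠ 0) :
    j₃ * h = (h + 27) * (h + 3) ^ 3 := by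
  rw [← e1] at e3
  subst e2
  have key : ((h + 27) * (h + 3) ^ 3 - j₃ * h) *
      (h ^ 4 - 36 * h ^ 3 + 270 * h ^ 2 - (756 - j₃) * h + 729) * Δ₃ ^ 4 = 0 := by
    linear_combination e3
  rcases mul_eq_zero.mp key with h1 | h1
  · rcases mul_eq_zero.mp h1 with h2 | h2
    · exact (sub_eq_zero.mp h2).symm
    · exact absurd h2 hsign
  · exact absurd h1 (pow_ne_zero 4 hΔ₃)

end Abstract


/-! ### the bridge `ι (f(X^a)) = qExpand a (ι f)` -/

section Bridge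

variable {R : Type*} [CommRing R]

theorem s18hi_ofPS_expand (a : ℕ) [NeZero a] (f : PowerSeries R) :
    HahnSeries.ofPowerSeries ℤ R (s18hExpand a f) =
      qExpand R a (HahnSeries.ofPowerSeries ℤ R f) := by
  ext k
  rcases le_or_gt 0 k with hk | hk
  · lift k to ℕ using hk
    rw [HahnSeries.ofPowerSeries_apply_coeff, s18hExpand_coeff]
    by_cases h : a ∣ k
    · obtain ⟨m, rfl⟩ := h
      rw [if_pos (dvd_mul_right a m), Nat.mul_div_cancel_left m (NeZero.pos a)]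
      push_cast
      rw [qExpand_coeff_mul, HahnSeries.ofPowerSeries_apply_coeff]
    · rw [if_neg h, qExpand_coeff_of_not_dvd]
      exact fun h' => h (Int.natCast_dvd_natCast.mp h')
  · rw [ofPowerSeries_coeff_of_neg _ hk]
    by_cases h : (a : ℤ) ∣ k
    · obtain ⟨m, rfl⟩ := h
      rw [qExpand_coeff_mul, ofPowerSeries_coeff_of_neg]
      have ha : (0 : ℤ) < a := by exact_mod_cast NeZero.pos a
      by_contra hm
      push Not at hm
      exact absurd hk (not_lt.mpr (mul_nonneg ha.le hm))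
    · rw [qExpand_coeff_of_not_dvd _ _ h]

theorem s18hi_constantCoeff_expand (a : ℕ) (f : PowerSeries R) :
    PowerSeries.constantCoeff (s18hExpand a f) = PowerSeries.constantCoeff f := by
  rw [← PowerSeries.coeff_zero_eq_constantCoeff_apply, s18hExpand_coeff, if_pos (dvd_zero a),
    Nat.zero_div, PowerSeries.coeff_zero_eq_constantCoeff_apply]

end Bridge

/-! ### the concrete series -/

section Concrete

local notation "ιZ" => HahnSeries.ofPowerSeries ℤ ℤ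

theorem s18hi_map_id (f : PowerSeries ℤ) : f.map (Int.castRingHom ℤ) = f := by
  rw [Int.castRingHom_int, PowerSeries.map_id]; rfl

theorem s18hi_q_mul_qi :
    (HahnSeries.single (1 : ℤ) (1 : ℤ) : LaurentSeries ℤ) * HahnSeries.single (-1 : ℤ) 1 = 1 := by
  rw [HahnSeries.single_mul_single]; simp

/-- `U^e * (U^e)⁻¹ = 1` -/
theorem s18hi_unit_mul_inv (e : ℕ) : s18hUnit e * s18hUnitInv e = 1 := by
  refine PowerSeries.mul_invOfUnit _ _ ?_
  rw [s18hUnit, map_pow, constantCoeff_etaProd, one_pow]; rfl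

theorem s18hi_D_eq : s18hD = PowerSeries.X * s18hUnit 24 := rfl

/-- `j Δ = E³` -/
theorem s18hi_jq_mul_D : jqModC ℤ * ιZ s18hD = ιZ s18hE ^ 3 := by
  have h1 : jNum * s18hD = PowerSeries.X * s18hE ^ 3 := by
    have := dedekindEtaUnit_mul_inv
    rw [dedekindEtaUnit] at this
    calc jNum * s18hD = eisenstein4 ^ 3 * PowerSeries.X * (etaProd ^ 24 * dedekindEtaUnitInv) := by
          rw [jNum, s18hD]; ring
      _ = PowerSeries.X * s18hE ^ 3 := by rw [this, s18hE]; ring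
  rw [jqModC, s18hi_map_id, mul_assoc, ← map_mul, h1, map_mul, HahnSeries.ofPowerSeries_X,
    ← mul_assoc, mul_comm (HahnSeries.single (-1 : ℤ) (1 : ℤ)), s18hi_q_mul_qi, one_mul, map_pow]

/-- `j_a Δ_a = E_a³` -/
theorem s18hi_jqN_mul_DN (a : ℕ) [NeZero a] :
    jqNModC ℤ a * ιZ (s18hExpand a s18hD) = ιZ (s18hExpand a s18hE) ^ 3 := by
  rw [jqNModC, s18hi_ofPS_expand, s18hi_ofPS_expand, ← map_mul, s18hi_jq_mul_D, map_pow]

/-- `Δ_a = q^a ι(U^24)(q^a)` -/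
theorem s18hi_DN_eq (a : ℕ) [NeZero a] :
    ιZ (s18hExpand a s18hD) =
      HahnSeries.single (a : ℤ) (1 : ℤ) * qExpand ℤ a (ιZ (s18hUnit 24)) := by
  rw [s18hi_ofPS_expand, s18hi_D_eq, map_mul, map_mul, HahnSeries.ofPowerSeries_X, qExpand_single,
    mul_one]

/-- `h₂ Δ₂ = Δ` -/
theorem s18hi_hq_two [h2 : NeZero 2] : s18hq 2 24 ℤ * ιZ (s18hExpand 2 s18hD) = ιZ s18hD := by
  rw [s18hq, s18hi_map_id, s18hi_map_id, s18hi_DN_eq, s18hi_D_eq, map_mul,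
    HahnSeries.ofPowerSeries_X]
  have h1 : qExpand ℤ 2 (ιZ (s18hUnitInv 24)) * qExpand ℤ 2 (ιZ (s18hUnit 24)) = 1 := by
    rw [← map_mul, ← map_mul, mul_comm, s18hi_unit_mul_inv, map_one, map_one]
  have h2 : (HahnSeries.single (-1 : ℤ) (1 : ℤ) : LaurentSeries ℤ) *
      HahnSeries.single ((2 : ℕ) : ℤ) 1 = HahnSeries.single 1 1 := by
    rw [HahnSeries.single_mul_single]; norm_num
  calc HahnSeries.single (-1 : ℤ) (1 : ℤ) * ιZ (s18hUnit 24) * qExpand ℤ 2 (ιZ (s18hUnitInv 24)) *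
        (HahnSeries.single ((2 : ℕ) : ℤ) 1 * qExpand ℤ 2 (ιZ (s18hUnit 24)))
      = (HahnSeries.single (-1 : ℤ) (1 : ℤ) * HahnSeries.single ((2 : ℕ) : ℤ) 1) *
          ιZ (s18hUnit 24) *
          (qExpand ℤ 2 (ιZ (s18hUnitInv 24)) * qExpand ℤ 2 (ιZ (s18hUnit 24))) := by ring
    _ = _ := by rw [h1, h2, mul_one]

/-- `h₃² Δ₃ = Δ` -/
theorem s18hi_hq_three [h3 : NeZero 3] :
    s18hq 3 12 ℤ ^ 2 * ιZ (s18hExpand 3 s18hD) = ιZ s18hD := by
  rw [s18hq, s18hi_map_id, s18hi_map_id, s18hi_DN_eq, s18hi_D_eq, map_mul,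
    HahnSeries.ofPowerSeries_X]
  have e24 : s18hUnit 24 = s18hUnit 12 ^ 2 := by
    rw [s18hUnit, s18hUnit, ← pow_mul]
  have h1 : qExpand ℤ 3 (ιZ (s18hUnitInv 12)) * qExpand ℤ 3 (ιZ (s18hUnit 12)) = 1 := by
    rw [← map_mul, ← map_mul, mul_comm, s18hi_unit_mul_inv, map_one, map_one]
  have h2 : (HahnSeries.single (-1 : ℤ) (1 : ℤ) : LaurentSeries ℤ) ^ 2 *
      HahnSeries.single ((3 : ℕ) : ℤ) 1 = HahnSeries.single 1 1 := by
    rw [HahnSeries.single_pow, HahnSeries.single_mul_single]; norm_num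
  rw [e24, map_pow, map_pow]
  calc (HahnSeries.single (-1 : ℤ) (1 : ℤ) * ιZ (s18hUnit 12) *
          qExpand ℤ 3 (ιZ (s18hUnitInv 12))) ^ 2 *
        (HahnSeries.single ((3 : ℕ) : ℤ) 1 * qExpand ℤ 3 (ιZ (s18hUnit 12)) ^ 2)
      = (HahnSeries.single (-1 : ℤ) (1 : ℤ) ^ 2 * HahnSeries.single ((3 : ℕ) : ℤ) 1) *
          ιZ (s18hUnit 12) ^ 2 *
          (qExpand ℤ 3 (ιZ (s18hUnitInv 12)) * qExpand ℤ 3 (ιZ (s18hUnit 12))) ^ 2 := by ring
    _ = _ := by rw [h1, h2, one_pow, mul_one]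

theorem s18hi_D_ne_zero : ιZ s18hD ≠ 0 := by
  intro h
  have h1 : s18hD = 0 := HahnSeries.ofPowerSeries_injective (by rw [h, map_zero])
  have h2 := congrArg (PowerSeries.coeff 1) h1
  rw [s18hD, PowerSeries.coeff_succ_X_mul, PowerSeries.coeff_zero_eq_constantCoeff_apply, map_pow,
    constantCoeff_etaProd, one_pow, map_zero] at h2
  exact one_ne_zero h2

theorem s18hi_DN_ne_zero (a : ℕ) [NeZero a] : ιZ (s18hExpand a s18hD) ≠ 0 := by
  rw [s18hi_ofPS_expand]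
  intro h
  exact s18hi_D_ne_zero (qExpand_injective a (by rw [h, map_zero]))


/-- `h₃ = q⁻¹ ι W`, `W(0) = 1` -/
theorem s18hi_hq_three_eq [h3 : NeZero 3] :
    s18hq 3 12 ℤ = HahnSeries.single (-1 : ℤ) (1 : ℤ) *
      ιZ (s18hUnit 12 * s18hExpand 3 (s18hUnitInv 12)) := by
  rw [s18hq, s18hi_map_id, s18hi_map_id, map_mul, s18hi_ofPS_expand, mul_assoc]

theorem s18hi_constantCoeff_W :
    PowerSeries.constantCoeff (s18hUnit 12 * s18hExpand 3 (s18hUnitInv 12)) = 1 := by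
  have h1 : PowerSeries.constantCoeff (s18hUnit 12) = 1 := by
    rw [s18hUnit, map_pow, constantCoeff_etaProd, one_pow]
  have h2 : PowerSeries.constantCoeff (s18hUnitInv 12) = 1 := by
    have := congrArg (PowerSeries.constantCoeff (R := ℤ)) (s18hi_unit_mul_inv 12)
    rwa [map_mul, h1, one_mul, map_one] at this
  rw [map_mul, s18hi_constantCoeff_expand, h1, h2, one_mul]

theorem s18hi_jq_eq : jqModC ℤ = HahnSeries.single (-1 : ℤ) (1 : ℤ) * ιZ jNum := by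
  rw [jqModC, s18hi_map_id]

theorem s18hi_jqN_three_eq [h3 : NeZero 3] :
    jqNModC ℤ 3 = HahnSeries.single (-1 : ℤ) (1 : ℤ) ^ 3 * ιZ (s18hExpand 3 jNum) := by
  rw [jqNModC, s18hi_jq_eq, map_mul, qExpand_single, s18hi_ofPS_expand, HahnSeries.single_pow]
  norm_num

/-- the sign for `a = 3`, first identity: `P(-h) ≠ 0`. -/
theorem s18hi_sign_three [h3 : NeZero 3] :
    s18hq 3 12 ℤ ^ 4 - (756 - jqModC ℤ) * s18hq 3 12 ℤ ^ 3 + 196830 * s18hq 3 12 ℤ ^ 2 -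
      19131876 * s18hq 3 12 ℤ + 387420489 ≠ 0 := by
  intro h0
  set W := s18hUnit 12 * s18hExpand 3 (s18hUnitInv 12) with hW
  set q : LaurentSeries ℤ := HahnSeries.single (1 : ℤ) (1 : ℤ) with hq
  set qi : LaurentSeries ℤ := HahnSeries.single (-1 : ℤ) (1 : ℤ) with hqi
  have hqq : q * qi = 1 := s18hi_q_mul_qi
  rw [s18hi_hq_three_eq, s18hi_jq_eq] at h0
  set w := ιZ W with hw
  set jj := ιZ jNum with hjj
  have h1 : ιZ (W ^ 4 - (756 * PowerSeries.X - jNum) * W ^ 3 + 196830 * PowerSeries.X ^ 2 * W ^ 2 -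
      19131876 * PowerSeries.X ^ 3 * W + 387420489 * PowerSeries.X ^ 4) = 0 := by
    simp only [map_sub, map_add, map_mul, map_pow, map_ofNat, HahnSeries.ofPowerSeries_X]
    have : w ^ 4 - (756 * q - jj) * w ^ 3 + 196830 * q ^ 2 * w ^ 2 - 19131876 * q ^ 3 * w +
        387420489 * q ^ 4 = q ^ 4 * ((qi * w) ^ 4 - (756 - qi * jj) * (qi * w) ^ 3 +
          196830 * (qi * w) ^ 2 - 19131876 * (qi * w) + 387420489) := by
      linear_combination (-((w ^ 4 + jj * w ^ 3) * ((q * qi) ^ 3 + (q * qi) ^ 2 + q * qi + 1) -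
        756 * q * w ^ 3 * ((q * qi) ^ 2 + q * qi + 1) + 196830 * q ^ 2 * w ^ 2 * (q * qi + 1) -
        19131876 * q ^ 3 * w)) * hqq
    rw [this, h0, mul_zero]
  have h2 : W ^ 4 - (756 * PowerSeries.X - jNum) * W ^ 3 + 196830 * PowerSeries.X ^ 2 * W ^ 2 -
      19131876 * PowerSeries.X ^ 3 * W + 387420489 * PowerSeries.X ^ 4 = 0 := by
    apply HahnSeries.ofPowerSeries_injective (Γ := ℤ)
    rw [h1, map_zero]
  have h3 := congrArg (PowerSeries.constantCoeff (R := ℤ)) h2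
  have hWc : PowerSeries.constantCoeff W = 1 := s18hi_constantCoeff_W
  simp only [map_sub, map_add, map_mul, map_pow, map_ofNat, PowerSeries.constantCoeff_X,
    hWc, constantCoeff_jNum, map_zero] at h3
  norm_num at h3

/-- the sign for `a = 3`, second identity. -/
theorem s18hi_sign_three' [h3 : NeZero 3] :
    s18hq 3 12 ℤ ^ 4 - 36 * s18hq 3 12 ℤ ^ 3 + 270 * s18hq 3 12 ℤ ^ 2 -
      (756 - jqNModC ℤ 3) * s18hq 3 12 ℤ + 729 ≠ 0 := by
  intro h0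
  set W := s18hUnit 12 * s18hExpand 3 (s18hUnitInv 12) with hW
  set q : LaurentSeries ℤ := HahnSeries.single (1 : ℤ) (1 : ℤ) with hq
  set qi : LaurentSeries ℤ := HahnSeries.single (-1 : ℤ) (1 : ℤ) with hqi
  have hqq : q * qi = 1 := s18hi_q_mul_qi
  rw [s18hi_hq_three_eq, s18hi_jqN_three_eq] at h0
  set w := ιZ W with hw
  set jj := ιZ (s18hExpand 3 jNum) with hjj
  have h1 : ιZ (W ^ 4 - 36 * PowerSeries.X * W ^ 3 + 270 * PowerSeries.X ^ 2 * W ^ 2 -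
      (756 * PowerSeries.X ^ 3 - s18hExpand 3 jNum) * W + 729 * PowerSeries.X ^ 4) = 0 := by
    simp only [map_sub, map_add, map_mul, map_pow, map_ofNat, HahnSeries.ofPowerSeries_X]
    have : w ^ 4 - 36 * q * w ^ 3 + 270 * q ^ 2 * w ^ 2 - (756 * q ^ 3 - jj) * w + 729 * q ^ 4 =
        q ^ 4 * ((qi * w) ^ 4 - 36 * (qi * w) ^ 3 + 270 * (qi * w) ^ 2 -
          (756 - qi ^ 3 * jj) * (qi * w) + 729) := by
      linear_combination (-((w ^ 4 + jj * w) * ((q * qi) ^ 3 + (q * qi) ^ 2 + q * qi + 1) -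
        36 * q * w ^ 3 * ((q * qi) ^ 2 + q * qi + 1) + 270 * q ^ 2 * w ^ 2 * (q * qi + 1) -
        756 * q ^ 3 * w)) * hqq
    rw [this, h0, mul_zero]
  have h2 : W ^ 4 - 36 * PowerSeries.X * W ^ 3 + 270 * PowerSeries.X ^ 2 * W ^ 2 -
      (756 * PowerSeries.X ^ 3 - s18hExpand 3 jNum) * W + 729 * PowerSeries.X ^ 4 = 0 := by
    apply HahnSeries.ofPowerSeries_injective (Γ := ℤ)
    rw [h1, map_zero]
  have h3 := congrArg (PowerSeries.constantCoeff (R := ℤ)) h2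
  have hWc : PowerSeries.constantCoeff W = 1 := s18hi_constantCoeff_W
  simp only [map_sub, map_add, map_mul, map_pow, map_ofNat, PowerSeries.constantCoeff_X,
    hWc, s18hi_constantCoeff_expand, constantCoeff_jNum, map_zero] at h3
  norm_num at h3

end Concrete

/-! ### the four identities -/

section Ident

local notation "ιZ" => HahnSeries.ofPowerSeries ℤ ℤ

theorem s18h_identity_two :
    jqModC ℤ * s18hq 2 24 ℤ ^ 2 = (s18hq 2 24 ℤ + 256) ^ 3 := by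
  refine s18hi_core_two s18hi_jq_mul_D s18hi_hq_two ?_ s18hi_D_ne_zero (s18hi_DN_ne_zero 2)
  have := congrArg ιZ s18h_ps_two
  simpa only [map_sub, map_add, map_mul, map_pow, map_ofNat] using this

theorem s18h_identity_three :
    jqModC ℤ * s18hq 3 12 ℤ ^ 3 = (s18hq 3 12 ℤ + 27) * (s18hq 3 12 ℤ + 243) ^ 3 := by
  refine s18hi_core_three s18hi_jq_mul_D s18hi_hq_three ?_ (s18hi_DN_ne_zero 3) s18hi_sign_three
  have := congrArg ιZ s18h_ps_three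
  simpa only [map_sub, map_add, map_mul, map_pow, map_ofNat] using this

theorem s18h_identity_two' :
    jqNModC ℤ 2 * s18hq 2 24 ℤ = (s18hq 2 24 ℤ + 16) ^ 3 := by
  refine s18hi_core_two' (s18hi_jqN_mul_DN 2) s18hi_hq_two ?_ (s18hi_DN_ne_zero 2)
  have := congrArg ιZ s18h_ps_two'
  simpa only [map_sub, map_add, map_mul, map_pow, map_ofNat] using this

theorem s18h_identity_three' :
    jqNModC ℤ 3 * s18hq 3 12 ℤ = (s18hq 3 12 ℤ + 27) * (s18hq 3 12 ℤ + 3) ^ 3 := by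
  refine s18hi_core_three' (s18hi_jqN_mul_DN 3) s18hi_hq_three ?_ (s18hi_DN_ne_zero 3)
    s18hi_sign_three'
  have := congrArg ιZ s18h_ps_three'
  simpa only [map_sub, map_add, map_mul, map_pow, map_ofNat] using this

end Ident

end Fermat.Agent.S18
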