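import Mathlib
import Fermat.Agent.S18.H.Defs
import Fermat.Agent.S18.H.Ident

/-!
# S18, package H : `s18h_mem` - the Hauptmodul `h_a` lies in `K(j, j_a) ⊆ F_K(M)`

From the four Hauptmodul identities (black boxes, `S18/H/IdSpec.lean`): over `K` (transport by
`coeffMap`), `h` is a common root of `P₁ = (X+256)³ - j X²` and `P₂ = (X+16)³ - j₂ X` (`a = 2`), resp.
of `(X+27)(X+243)³ - j X³` and `(X+27)(X+3)³ - j₃ X` (`a = 3`).  The Euclidean algorithm gives an
explicit linear relation `D · h + D' = 0` with `D, D' ∈ ℤ[j, j_a]` (`s18hm_elim_two/three`, checked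
by `linear_combination`), and `D' ≠ 0` because `D' · q^N` is a power series with nonzero constant
coefficient (`N = 2, 8`; `-2^24` resp. `-13947137604`), so `D ≠ 0` and `h = -D'/D`.
-/

set_option autoImplicit false
set_option linter.unusedSectionVars false
set_option maxHeartbeats 1000000

noncomputable section

namespace Fermat.Agent.S18

open ModularCurve HahnSeries

section Transport

variable {R S : Type*} [CommRing R] [CommRing S]

theorem s18hm_map_map (f : R →+* S) (u : PowerSeries ℤ) :
    (u.map (Int.castRingHom R)).map f = u.map (Int.castRingHom S) := by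
  ext n
  simp

/-- the Hauptmodul is compatible with change of coefficients. -/
theorem s18hm_coeffMap_hq (a : ℕ) [NeZero a] (e : ℕ) (f : R →+* S) :
    coeffMap f (s18hq a e R) = s18hq a e S := by
  rw [s18hq, s18hq, map_mul, map_mul, coeffMap_single, map_one, coeffMap_ofPowerSeries,
    coeffMap_qExpand, coeffMap_ofPowerSeries, s18hm_map_map, s18hm_map_map]

/-- `qExpand` of a power series is a power series with the same constant coefficient. -/
theorem s18hm_qExpand_ofPowerSeries (a : ℕ) [NeZero a] (w : PowerSeries R) :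
    ∃ w' : PowerSeries R, qExpand R a (ofPowerSeries ℤ R w) = ofPowerSeries ℤ R w' ∧
      PowerSeries.constantCoeff w' = PowerSeries.constantCoeff w := by
  have ha0 : 0 < a := Nat.pos_of_ne_zero (NeZero.ne a)
  refine ⟨PowerSeries.mk fun n => if a ∣ n then PowerSeries.coeff (n / a) w else 0, ?_, ?_⟩
  · ext k
    by_cases hk : (a : ℤ) ∣ k
    · obtain ⟨m, rfl⟩ := hk
      rw [qExpand_coeff_mul]
      rcases le_or_gt 0 m with hm | hm
      · lift m to ℕ using hm
        have : ((a : ℤ) * (m : ℤ)) = ((a * m : ℕ) : ℤ) := by push_cast; ring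
        rw [this, ofPowerSeries_apply_coeff, ofPowerSeries_apply_coeff, PowerSeries.coeff_mk,
          if_pos (dvd_mul_right a m), Nat.mul_div_cancel_left m ha0]
      · have hneg : (a : ℤ) * m < 0 := mul_neg_of_pos_of_neg (by exact_mod_cast ha0) hm
        rw [ofPowerSeries_coeff_of_neg _ hm, ofPowerSeries_coeff_of_neg _ hneg]
    · rw [qExpand_coeff_of_not_dvd a _ hk]
      rcases le_or_gt 0 k with hk0 | hk0
      · lift k to ℕ using hk0
        rw [ofPowerSeries_apply_coeff, PowerSeries.coeff_mk, if_neg]
        intro h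
        exact hk (by exact_mod_cast h)
      · rw [ofPowerSeries_coeff_of_neg _ hk0]
  · rw [← PowerSeries.coeff_zero_eq_constantCoeff_apply, PowerSeries.coeff_mk,
      if_pos (dvd_zero a), Nat.zero_div, PowerSeries.coeff_zero_eq_constantCoeff_apply]

end Transport

section Elim

variable {L : Type*} [Field L]

/-- elimination for `a = 2`: the common root `h` of `(X+256)³ - j X²` and `(X+16)³ - j₂ X`
satisfies a linear equation over `ℤ[j, j₂]`. -/
theorem s18hm_elim_two (h j ja : L) (e1 : j * h ^ 2 = (h + 256) ^ 3)
    (e2 : ja * h = (h + 16) ^ 3) :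
    ((1) * j^2 * ja + (-768) * j^2 + (-1488) * j * ja + (-25067520) * j + (-1) * ja^2 + (161280) * ja + (-19906560000)) * h + ((-4096) * j^2 + (-799211520) * j + (-16773120) * ja + (-2707292160000)) = 0 := by
  linear_combination (-((-1) * h * j + (720) * h + (-48) * j + (-1) * ja + (-161280))) * e1 + (-((1) * h * j + (-720) * h + (-1) * j^2 + (1488) * j + (1) * ja + (-357120))) * e2

/-- elimination for `a = 3`. -/
theorem s18hm_elim_three (h j ja : L) (e1 : j * h ^ 3 = (h + 27) * (h + 243) ^ 3)
    (e2 : ja * h = (h + 27) * (h + 3) ^ 3) :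
    ((36) * j^5 * ja^2 + (-54432) * j^5 * ja + (13489416) * j^5 + (64368) * j^4 * ja^2 + (-79494583572) * j^4 * ja + (-126415484676000) * j^4 + (-407357424) * j^3 * ja^2 + (-658966989563280) * j^3 * ja + (20118851231559148800) * j^3 + (-36) * j^2 * ja^3 + (427742208000) * j^2 * ja^2 + (-1109929531166035200) * j^2 * ja + (-11751687460316911104000) * j^2 + (-144720) * j * ja^3 + (-136790712403200) * j * ja^2 + (1114436220326710272000) * j * ja + (-452719255469137330176000000) * j + (122860800) * ja^3 + (4529228990976000) * ja^2 + (40325293302349824000000) * ja + (324574587837952819200000000000)) * h + ((-26244) * j^5 * ja + (19840464) * j^5 + (-502143878016) * j^4 * ja + (-607487911274880) * j^4 + (-4026018508511040) * j^3 * ja + (370332704293413177600) * j^3 + (-13947111360) * j^2 * ja^2 + (-5087448200151129600) * j^2 * ja + (-1067207142120561418752000) * j^2 + (-56067387667200) * j * ja^2 + (11962063159950099456000) * j * ja + (-11594911637186122088448000000) * j + (47598701649408000) * ja^2 + (-4337698471252328448000000) * ja + (8763513871624726118400000000000))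 = 0 := by
  linear_combination (-((-9720) * h^2 * j^4 + (-36) * h^2 * j^3 * ja + (-968539680) * h^2 * j^3 + (-118800) * h^2 * j^2 * ja + (-4419914169600) * h^2 * j^2 + (227059200) * h^2 * j * ja + (291201744384000) * h^2 * j + (-88459776000) * h^2 * ja + (2445735886848000000) * h^2 + (-36) * h * j^4 * ja + (-322704) * h * j^4 + (-92880) * h * j^3 * ja + (3943831680) * h * j^3 + (319671360) * h * j^2 * ja + (103867075526400) * h * j^2 + (-223496236800) * h * j * ja + (310533187318272000) * h * j + (39541519872000) * h * ja + (-278813891100672000000) * h + (-1296) * j^4 * ja + (-1644624) * j^4 + (-10392624) * j^3 * ja + (955094742720) * j^3 + (-36) * j^2 * ja^2 + (-13130786880) * j^2 * ja + (-2756496423628800) * j^2 + (-144720) * j * ja^2 + (30875923699200) * j * ja + (-29927345416796160000) * j + (122860800) * ja^2 + (-11196353848320000) * ja + (22620611217457152000000))) * e1 + (-((9720) * h^2 * j^4 + (36) * h^2 * j^3 * ja + (968539680) * h^2 * j^3 + (118800) * h^2 * j^2 * ja + (4419914169600) * h^2 * j^2 + (-227059200) * h^2 * j * ja + (-291201744384000)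 * h^2 * j + (88459776000) * h^2 * ja + (-2445735886848000000) * h^2 + (-9720) * h * j^5 + (-961218576) * h * j^4 + (-3726509431680) * h * j^3 + (-7076160) * h * j^2 * ja + (3369672870969600) * h * j^2 + (-28446163200) * h * j * ja + (1925537443573248000) * h * j + (24149518848000) * h * ja + (-1482115947429888000000) * h + (-36) * j^5 * ja + (27216) * j^5 + (-64368) * j^4 * ja + (40703872464) * j^4 + (407357424) * j^3 * ja + (424460943074880) * j^3 + (36) * j^2 * ja^2 + (-428430928320) * j^2 * ja + (982236280465612800) * j^2 + (144720) * j * ja^2 + (134022056716800) * j * ja + (-610207598141245440000) * j + (-122860800) * ja^2 + (-2178764282880000) * ja + (-239214981356716032000000))) * e2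

end Elim

section NeZero

variable (K : Type*) [Field K] [CharZero K]

/-- `j = s⁻¹ U`, `j_a = s⁻ᵃ U_a` with `U, U_a` power series with constant coefficient `1`. -/
theorem s18hm_factor (a : ℕ) [NeZero a] :
    ∃ u w : PowerSeries K, PowerSeries.constantCoeff u = 1 ∧ PowerSeries.constantCoeff w = 1 ∧
      jqModC K * single (1 : ℤ) (1 : K) = ofPowerSeries ℤ K u ∧
      jqNModC K a * (single (1 : ℤ) (1 : K)) ^ a = ofPowerSeries ℤ K w := by
  set u : PowerSeries K := jNum.map (Int.castRingHom K) with hu
  have hu1 : PowerSeries.constantCoeff u = 1 := by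
    rw [hu, ← PowerSeries.coeff_zero_eq_constantCoeff_apply, PowerSeries.coeff_map,
      PowerSeries.coeff_zero_eq_constantCoeff_apply, constantCoeff_jNum, map_one]
  obtain ⟨w, hw, hw1⟩ := s18hm_qExpand_ofPowerSeries a u
  have h00 : (single (0 : ℤ) (1 : K)) = 1 := rfl
  refine ⟨u, w, hu1, hw1.trans hu1, ?_, ?_⟩
  · rw [jqModC, mul_comm, ← mul_assoc, single_mul_single,
      show (1 : ℤ) + -1 = 0 by norm_num, mul_one, h00, one_mul]
  · rw [jqNModC, jqModC, map_mul, qExpand_single, hw, single_pow, mul_comm, ← mul_assoc,
      single_mul_single]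
    have : a • (1 : ℤ) + (a : ℤ) * (-1) = 0 := by simp
    rw [this, one_pow, one_mul, h00, one_mul]

theorem s18hm_Dp_two_ne_zero (j ja : LaurentSeries K) (hj : j = jqModC K)
    (hja : ja = jqNModC K 2) :
    ((-4096) * j^2 + (-799211520) * j + (-16773120) * ja + (-2707292160000)) ≠ 0 := by
  obtain ⟨u, w, hu, hw, hU, hUa⟩ := s18hm_factor K 2
  rw [← hj] at hU
  rw [← hja] at hUa
  intro h0
  set s : LaurentSeries K := single (1 : ℤ) (1 : K) with hs
  set T : PowerSeries K := PowerSeries.X with hT
  have hsT : ofPowerSeries ℤ K T = s := ofPowerSeries_X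
  have key : ((-4096) * j^2 + (-799211520) * j + (-16773120) * ja + (-2707292160000)) * s ^ 2 =
      ofPowerSeries ℤ K ((-2707292160000) * T^2 + (-799211520) * T * u + (-4096) * u^2 + (-16773120) * w) := by
    simp only [map_add, map_mul, map_pow, map_neg, map_ofNat, hsT, ← hU, ← hUa]
    ring
  rw [h0, zero_mul] at key
  have h1 := ofPowerSeries_injective (key.symm.trans (map_zero _).symm)
  have h2 := congrArg PowerSeries.constantCoeff h1
  simp only [map_add, map_mul, map_pow, map_neg, map_ofNat, hu, hw, hT,
    PowerSeries.constantCoeff_X, map_zero] at h2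
  norm_num at h2

theorem s18hm_Dp_three_ne_zero (j ja : LaurentSeries K) (hj : j = jqModC K)
    (hja : ja = jqNModC K 3) :
    ((-26244) * j^5 * ja + (19840464) * j^5 + (-502143878016) * j^4 * ja + (-607487911274880) * j^4 + (-4026018508511040) * j^3 * ja + (370332704293413177600) * j^3 + (-13947111360) * j^2 * ja^2 + (-5087448200151129600) * j^2 * ja + (-1067207142120561418752000) * j^2 + (-56067387667200) * j * ja^2 + (11962063159950099456000) * j * ja + (-11594911637186122088448000000) * j + (47598701649408000) * ja^2 + (-4337698471252328448000000) * ja + (8763513871624726118400000000000)) ≠ 0 := by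
  obtain ⟨u, w, hu, hw, hU, hUa⟩ := s18hm_factor K 3
  rw [← hj] at hU
  rw [← hja] at hUa
  intro h0
  set s : LaurentSeries K := single (1 : ℤ) (1 : K) with hs
  set T : PowerSeries K := PowerSeries.X with hT
  have hsT : ofPowerSeries ℤ K T = s := ofPowerSeries_X
  have key : ((-26244) * j^5 * ja + (19840464) * j^5 + (-502143878016) * j^4 * ja + (-607487911274880) * j^4 + (-4026018508511040) * j^3 * ja + (370332704293413177600) * j^3 + (-13947111360) * j^2 * ja^2 + (-5087448200151129600) * j^2 * ja + (-1067207142120561418752000) * j^2 + (-56067387667200) * j * ja^2 + (11962063159950099456000) * j * ja + (-11594911637186122088448000000) * j + (47598701649408000) * ja^2 + (-4337698471252328448000000) * ja + (8763513871624726118400000000000)) * s ^ 8 =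
      ofPowerSeries ℤ K ((8763513871624726118400000000000) * T^8 + (-11594911637186122088448000000) * T^7 * u + (-1067207142120561418752000) * T^6 * u^2 + (370332704293413177600) * T^5 * u^3 + (-4337698471252328448000000) * T^5 * w + (-607487911274880) * T^4 * u^4 + (11962063159950099456000) * T^4 * u * w + (19840464) * T^3 * u^5 + (-5087448200151129600) * T^3 * u^2 * w + (-4026018508511040) * T^2 * u^3 * w + (47598701649408000) * T^2 * w^2 + (-502143878016) * T * u^4 * w + (-56067387667200) * T * u * w^2 + (-26244) * u^5 * w + (-13947111360) * u^2 * w^2) := by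
    simp only [map_add, map_mul, map_pow, map_neg, map_ofNat, hsT, ← hU, ← hUa]
    ring
  rw [h0, zero_mul] at key
  have h1 := ofPowerSeries_injective (key.symm.trans (map_zero _).symm)
  have h2 := congrArg PowerSeries.constantCoeff h1
  simp only [map_add, map_mul, map_pow, map_neg, map_ofNat, hu, hw, hT,
    PowerSeries.constantCoeff_X, map_zero] at h2
  norm_num at h2

end NeZero

section Main

variable (K : Type*) [Field K] [CharZero K]

theorem s18hm_mem_two (M : ℕ) [NeZero M] (haM : 2 ∣ M) :
    s18hq 2 24 K ∈ modularFunctionFieldFullC K M := by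
  set h := s18hq 2 24 K with hh
  have e1 : jqModC K * h ^ 2 = (h + 256) ^ 3 := by
    have := congrArg (coeffMap (Int.castRingHom K)) s18h_identity_two
    rw [map_mul, map_pow, map_pow, map_add, coeffMap_jqModC, s18hm_coeffMap_hq, map_ofNat] at this
    exact this
  have e2 : jqNModC K 2 * h = (h + 16) ^ 3 := by
    have := congrArg (coeffMap (Int.castRingHom K)) s18h_identity_two'
    rw [map_mul, map_pow, map_add, coeffMap_jqNModC, s18hm_coeffMap_hq, map_ofNat] at this
    exact this
  have hlin := s18hm_elim_two h (jqModC K) (jqNModC K 2) e1 e2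
  have hD' := s18hm_Dp_two_ne_zero K (jqModC K) (jqNModC K 2) rfl rfl
  have hD : ((1) * (jqModC K)^2 * (jqNModC K 2) + (-768) * (jqModC K)^2 + (-1488) * (jqModC K) * (jqNModC K 2) + (-25067520) * (jqModC K) + (-1) * (jqNModC K 2)^2 + (161280) * (jqNModC K 2) + (-19906560000)) ≠ 0 := by
    intro h0
    rw [h0, zero_mul, zero_add] at hlin
    exact hD' hlin
  let jF : modularFunctionFieldFullC K M := ⟨jqModC K, jqModC_mem_full K M⟩
  let jaF : modularFunctionFieldFullC K M := ⟨jqNModC K 2, jqModCd_mem_full K M haM⟩
  have hjF : (jF : LaurentSeries K) = jqModC K := rfl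
  have hjaF : (jaF : LaurentSeries K) = jqNModC K 2 := rfl
  have hmem : h = ((-((-4096) * jF^2 + (-799211520) * jF + (-16773120) * jaF + (-2707292160000)) / ((1) * jF^2 * jaF + (-768) * jF^2 + (-1488) * jF * jaF + (-25067520) * jF + (-1) * jaF^2 + (161280) * jaF + (-19906560000)) : modularFunctionFieldFullC K M) :
      LaurentSeries K) := by
    show h = -((-4096) * (jqModC K)^2 + (-799211520) * (jqModC K) + (-16773120) * (jqNModC K 2) + (-2707292160000)) / ((1) * (jqModC K)^2 * (jqNModC K 2) + (-768) * (jqModC K)^2 + (-1488) * (jqModC K) * (jqNModC K 2) + (-25067520) * (jqModC K) + (-1) * (jqNModC K 2)^2 + (161280) * (jqNModC K 2) + (-19906560000))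
    rw [eq_div_iff hD]
    linear_combination hlin
  rw [hmem]
  exact SetLike.coe_mem _

theorem s18hm_mem_three (M : ℕ) [NeZero M] (haM : 3 ∣ M) :
    s18hq 3 12 K ∈ modularFunctionFieldFullC K M := by
  set h := s18hq 3 12 K with hh
  have e1 : jqModC K * h ^ 3 = (h + 27) * (h + 243) ^ 3 := by
    have := congrArg (coeffMap (Int.castRingHom K)) s18h_identity_three
    rw [map_mul, map_mul, map_pow, map_pow, map_add, map_add, coeffMap_jqModC, s18hm_coeffMap_hq,
      map_ofNat, map_ofNat] at this
    exact this
  have e2 : jqNModC K 3 * h = (h + 27) * (h + 3) ^ 3 := by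
    have := congrArg (coeffMap (Int.castRingHom K)) s18h_identity_three'
    rw [map_mul, map_mul, map_pow, map_add, map_add, coeffMap_jqNModC, s18hm_coeffMap_hq,
      map_ofNat, map_ofNat] at this
    exact this
  have hlin := s18hm_elim_three h (jqModC K) (jqNModC K 3) e1 e2
  have hD' := s18hm_Dp_three_ne_zero K (jqModC K) (jqNModC K 3) rfl rfl
  have hD : ((36) * (jqModC K)^5 * (jqNModC K 3)^2 + (-54432) * (jqModC K)^5 * (jqNModC K 3) + (13489416) * (jqModC K)^5 + (64368) * (jqModC K)^4 * (jqNModC K 3)^2 + (-79494583572) * (jqModC K)^4 * (jqNModC K 3) + (-126415484676000) * (jqModC K)^4 + (-407357424) * (jqModC K)^3 * (jqNModC K 3)^2 + (-658966989563280) * (jqModC K)^3 * (jqNModC K 3) + (20118851231559148800) * (jqModC K)^3 + (-36) * (jqModC K)^2 * (jqNModC K 3)^3 + (427742208000) * (jqModC K)^2 * (jqNModC K 3)^2 + (-1109929531166035200) * (jqModC K)^2 * (jqNModC K 3) + (-11751687460316911104000) * (jqModC K)^2 + (-144720) * (jqModC K) * (jqNModC K 3)^3 + (-136790712403200) * (jqModC K) * (jqNModC K 3)^2 + (1114436220326710272000) * (jqModC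 K) * (jqNModC K 3) + (-452719255469137330176000000) * (jqModC K) + (122860800) * (jqNModC K 3)^3 + (4529228990976000) * (jqNModC K 3)^2 + (40325293302349824000000) * (jqNModC K 3) + (324574587837952819200000000000)) ≠ 0 := by
    intro h0
    rw [h0, zero_mul, zero_add] at hlin
    exact hD' hlin
  let jF : modularFunctionFieldFullC K M := ⟨jqModC K, jqModC_mem_full K M⟩
  let jaF : modularFunctionFieldFullC K M := ⟨jqNModC K 3, jqModCd_mem_full K M haM⟩
  have hjF : (jF : LaurentSeries K) = jqModC K := rfl
  have hjaF : (jaF : LaurentSeries K) = jqNModC K 3 := rfl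
  have hmem : h = ((-((-26244) * jF^5 * jaF + (19840464) * jF^5 + (-502143878016) * jF^4 * jaF + (-607487911274880) * jF^4 + (-4026018508511040) * jF^3 * jaF + (370332704293413177600) * jF^3 + (-13947111360) * jF^2 * jaF^2 + (-5087448200151129600) * jF^2 * jaF + (-1067207142120561418752000) * jF^2 + (-56067387667200) * jF * jaF^2 + (11962063159950099456000) * jF * jaF + (-11594911637186122088448000000) * jF + (47598701649408000) * jaF^2 + (-4337698471252328448000000) * jaF + (8763513871624726118400000000000)) / ((36) * jF^5 * jaF^2 + (-54432) * jF^5 * jaF + (13489416) * jF^5 + (64368) * jF^4 * jaF^2 + (-79494583572) * jF^4 * jaF + (-126415484676000) * jF^4 + (-407357424) * jF^3 * jaF^2 + (-658966989563280) * jF^3 * jaF + (20118851231559148800) * jF^3 + (-36) * jF^2 * jaF^3 + (427742208000) * jF^2 * jaF^2 + (-1109929531166035200) * jF^2 * jaF + (-11751687460316911104000) * jF^2 + (-144720) * jF * jaF^3 + (-136790712403200) * jF * jaF^2 + (1114436220326710272000) * jF * jaF + (-452719255469137330176000000) * jF + (122860800) * jaF^3 + (4529228990976000)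 * jaF^2 + (40325293302349824000000) * jaF + (324574587837952819200000000000)) : modularFunctionFieldFullC K M) :
      LaurentSeries K) := by
    show h = -((-26244) * (jqModC K)^5 * (jqNModC K 3) + (19840464) * (jqModC K)^5 + (-502143878016) * (jqModC K)^4 * (jqNModC K 3) + (-607487911274880) * (jqModC K)^4 + (-4026018508511040) * (jqModC K)^3 * (jqNModC K 3) + (370332704293413177600) * (jqModC K)^3 + (-13947111360) * (jqModC K)^2 * (jqNModC K 3)^2 + (-5087448200151129600) * (jqModC K)^2 * (jqNModC K 3) + (-1067207142120561418752000) * (jqModC K)^2 + (-56067387667200) * (jqModC K) * (jqNModC K 3)^2 + (11962063159950099456000) * (jqModC K) * (jqNModC K 3) + (-11594911637186122088448000000) * (jqModC K) + (47598701649408000) * (jqNModC K 3)^2 + (-4337698471252328448000000) * (jqNModC K 3) + (8763513871624726118400000000000)) / ((36) * (jqModC K)^5 * (jqNModC K 3)^2 + (-54432) * (jqModC K)^5 * (jqNModC K 3) + (13489416) * (jqModC K)^5 + (64368) * (jqModC K)^4 * (jqNModC K 3)^2 + (-79494583572) * (jqModC K)^4 * (jqNModC K 3) + (-126415484676000)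 * (jqModC K)^4 + (-407357424) * (jqModC K)^3 * (jqNModC K 3)^2 + (-658966989563280) * (jqModC K)^3 * (jqNModC K 3) + (20118851231559148800) * (jqModC K)^3 + (-36) * (jqModC K)^2 * (jqNModC K 3)^3 + (427742208000) * (jqModC K)^2 * (jqNModC K 3)^2 + (-1109929531166035200) * (jqModC K)^2 * (jqNModC K 3) + (-11751687460316911104000) * (jqModC K)^2 + (-144720) * (jqModC K) * (jqNModC K 3)^3 + (-136790712403200) * (jqModC K) * (jqNModC K 3)^2 + (1114436220326710272000) * (jqModC K) * (jqNModC K 3) + (-452719255469137330176000000) * (jqModC K) + (122860800) * (jqNModC K 3)^3 + (4529228990976000) * (jqNModC K 3)^2 + (40325293302349824000000) * (jqNModC K 3) + (324574587837952819200000000000))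
    rw [eq_div_iff hD]
    linear_combination hlin
  rw [hmem]
  exact SetLike.coe_mem _

/-- (package H) `h_a` is a modular function of level `a`: it lies in `K(j, j_a)`. -/
theorem s18h_mem (K : Type*) [Field K] [CharZero K] (a : ℕ) [NeZero a] (ha : a = 2 ∨ a = 3)
    (M : ℕ) [NeZero M] (haM : a ∣ M) :
    s18hq a (s18hExp a) K ∈ modularFunctionFieldFullC K M := by
  rcases ha with rfl | rfl
  · exact s18hm_mem_two K M haM
  · exact s18hm_mem_three K M haM

end Main

end Fermat.Agent.S18
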