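/-
S18 / package H (row 418, helper26): ENTRY POINT.  Everything of package H is proved (axioms std):

* `H/Forms.lean`, `H/Compute.lean`, `H/Ps.lean` (helper26): the four power series identities
  `s18h_ps_two`, `s18h_ps_two'`, `s18h_ps_three`, `s18h_ps_three'` (Sturm bound on `Γ₀(2)`, `Γ₀(3)`);
* `H/Ident.lean` (helper1): `s18h_identity_two`, `s18h_identity_three`, `s18h_identity_two'`,
  `s18h_identity_three'` (the statements of `S18/Core/Small.lean`);
* `H/Mem.lean` (helper5): `s18h_mem`.

`S18/Core/Small.lean` imports this file and drops its five stubs.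
-/
import Fermat.Agent.S18.H.Ident
import Fermat.Agent.S18.H.Mem
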